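/-
S56 / E-ECp / (L6) part 0 (helper5): the general `p`-Herbrand lemma for additive invariants.

For an injective `R`-linear map `u : A → B` with finite cokernel and `A/pA`, `B/pB`, `B[p]` finite:
`f(A/pA) + f(B[p]) = f(B/pB) + f(A[p])`   (`AddInv.herbrand`),
i.e. the `p`-Herbrand functional `h_p(M) = f(M/p) - f(M[p])` does not see finite-index submodules.
`AddInv.lattice` (helper1) is the case where `B` has no `p`-torsion.
Proof: six-term snake for multiplication by `p` on `0 → A → B → Q → 0`, written out by hand through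
the pull-back `P = {(a, b) | u a = p b}`, and `f(Q[p]) = f(Q/pQ)` for the finite module `Q`.
-/
import Mathlib
import Fermat.Agent.S56.GEC.Induction.AddInv

set_option autoImplicit false
set_option linter.unusedSectionVars false
set_option linter.style.haveILetI false

namespace Fermat.Agent.S56.Loc.EC.Units

open Fermat.Agent.S56.GEC.Induction

namespace Herbrand

variable {R : Type} [Ring R] {p : ℕ} (F : AddInv R p)
variable {A B : Type} [AddCommGroup A] [Module R A] [AddCommGroup B] [Module R B]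

/-- The `p`-torsion of `A` is finite when that of `B` is and `A` embeds in `B`. -/
theorem finite_ker_pMul_of_injective (u : A →ₗ[R] B) (hu : Function.Injective u)
    [Finite (LinearMap.ker (pMul R p B))] : Finite (LinearMap.ker (pMul R p A)) := by
  let i : LinearMap.ker (pMul R p A) → LinearMap.ker (pMul R p B) := fun a =>
    ⟨u a, by
      have ha : p • (a : A) = 0 := a.2
      show p • u (a : A) = 0
      rw [← map_nsmul, ha, map_zero]⟩
  have hi : Function.Injective i := fun a a' h => by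
    apply Subtype.ext
    apply hu
    exact congrArg Subtype.val h
  exact Finite.of_injective i hi

/-- **The `p`-Herbrand lemma** (with torsion). -/
theorem herbrand (u : A →ₗ[R] B) (hu : Function.Injective u)
    [Finite (B ⧸ LinearMap.range u)] [Finite (A ⧸ LinearMap.range (pMul R p A))]
    [Finite (B ⧸ LinearMap.range (pMul R p B))] [Finite (LinearMap.ker (pMul R p B))] :
    F.f (A ⧸ LinearMap.range (pMul R p A)) + F.f (LinearMap.ker (pMul R p B)) =
      F.f (B ⧸ LinearMap.range (pMul R p B)) + F.f (LinearMap.ker (pMul R p A)) := by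
  haveI : Finite (LinearMap.ker (pMul R p A)) := finite_ker_pMul_of_injective u hu
  set pA := LinearMap.range (pMul R p A) with hpA
  set pB := LinearMap.range (pMul R p B) with hpB
  set Q := B ⧸ LinearMap.range u with hQ
  have hle : pA ≤ pB.comap u := by
    rintro _ ⟨a, rfl⟩
    exact ⟨u a, by simp⟩
  set ubar : (A ⧸ pA) →ₗ[R] (B ⧸ pB) := Submodule.mapQ pA pB u hle with hubar
  -- `f(A/pA) = f(ker ū) + f(range ū)`
  have h1 : F.f (A ⧸ pA) = F.f (LinearMap.ker ubar) + F.f (LinearMap.range ubar) :=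
    F.add_of_exact (LinearMap.ker ubar).subtype ubar.rangeRestrict (Submodule.subtype_injective _)
      ubar.surjective_rangeRestrict (fun x => by
        constructor
        · intro h
          exact ⟨⟨x, congrArg Subtype.val h⟩, rfl⟩
        · rintro ⟨y, rfl⟩
          exact Subtype.ext y.2)
  -- `f(B/pB) = f(range ū) + f(Q/pQ)`
  have hle2 : pB ≤ (LinearMap.range (pMul R p Q)).comap (LinearMap.range u).mkQ := by
    rintro _ ⟨b, rfl⟩
    exact ⟨(LinearMap.range u).mkQ b, by simp⟩
  set q₂ : (B ⧸ pB) →ₗ[R] (Q ⧸ LinearMap.range (pMul R p Q)) :=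
    Submodule.mapQ pB _ (LinearMap.range u).mkQ hle2 with hq₂
  have hq₂s : Function.Surjective q₂ := by
    intro z
    obtain ⟨y, rfl⟩ := Submodule.mkQ_surjective _ z
    obtain ⟨b, rfl⟩ := Submodule.mkQ_surjective _ y
    exact ⟨pB.mkQ b, rfl⟩
  have hex₂ : Function.Exact (LinearMap.range ubar).subtype q₂ := by
    intro z
    obtain ⟨b, rfl⟩ := Submodule.mkQ_surjective _ z
    constructor
    · intro h
      have h' : (LinearMap.range u).mkQ b ∈ LinearMap.range (pMul R p Q) :=
        (Submodule.Quotient.mk_eq_zero _).1 h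
      obtain ⟨y, hy⟩ := h'
      obtain ⟨b', rfl⟩ := Submodule.mkQ_surjective _ y
      have h3 : b - p • b' ∈ LinearMap.range u := by
        rw [← Submodule.Quotient.mk_eq_zero, Submodule.Quotient.mk_sub, sub_eq_zero]
        rw [Submodule.Quotient.mk_smul]
        exact hy.symm
      obtain ⟨a, ha⟩ := h3
      refine ⟨⟨_, ⟨pA.mkQ a, rfl⟩⟩, ?_⟩
      show pB.mkQ (u a) = pB.mkQ b
      rw [ha, map_sub, sub_eq_self]
      exact (Submodule.Quotient.mk_eq_zero _).2 ⟨b', rfl⟩
    · rintro ⟨⟨_, ⟨y, rfl⟩⟩, hy⟩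
      rw [← hy]
      obtain ⟨a, rfl⟩ := Submodule.mkQ_surjective _ y
      show q₂ (pB.mkQ (u a)) = 0
      apply (Submodule.Quotient.mk_eq_zero _).2
      have : (LinearMap.range u).mkQ (u a) = 0 := (Submodule.Quotient.mk_eq_zero _).2 ⟨a, rfl⟩
      rw [this]
      exact Submodule.zero_mem _
  have h2 := F.add_of_exact (LinearMap.range ubar).subtype q₂ (Submodule.subtype_injective _)
    hq₂s hex₂
  -- the image `I₁` of `B[p]` in `Q`
  set γ : LinearMap.ker (pMul R p B) →ₗ[R] Q :=
    (LinearMap.range u).mkQ ∘ₗ (LinearMap.ker (pMul R p B)).subtype with hγ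
  -- `0 → A[p] → B[p] → I₁ → 0`
  let i₃ : LinearMap.ker (pMul R p A) →ₗ[R] LinearMap.ker (pMul R p B) :=
    LinearMap.codRestrict _ (u ∘ₗ (LinearMap.ker (pMul R p A)).subtype) (fun a => by
      have ha : p • (a : A) = 0 := a.2
      show p • u (a : A) = 0
      rw [← map_nsmul, ha, map_zero])
  have hi₃ : Function.Injective i₃ := fun a a' h => by
    apply Subtype.ext
    apply hu
    exact congrArg Subtype.val h
  have hex₃ : Function.Exact i₃ γ.rangeRestrict := by
    intro b
    constructor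
    · intro h
      have h' : γ b = 0 := congrArg Subtype.val h
      have hb : (b : B) ∈ LinearMap.range u := (Submodule.Quotient.mk_eq_zero _).1 h'
      obtain ⟨a, ha⟩ := hb
      have hpa : p • a = 0 := by
        apply hu
        rw [map_nsmul, ha, map_zero]
        exact b.2
      exact ⟨⟨a, hpa⟩, Subtype.ext ha⟩
    · rintro ⟨a, rfl⟩
      apply Subtype.ext
      exact (Submodule.Quotient.mk_eq_zero _).2 ⟨(a : A), rfl⟩
  have h3 := F.add_of_exact i₃ γ.rangeRestrict hi₃ γ.surjective_rangeRestrict hex₃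
  -- the pull-back `P = {(a, b) | u a = p b}`
  set P : Submodule R (A × B) :=
    LinearMap.ker (u ∘ₗ LinearMap.fst R A B - pMul R p B ∘ₗ LinearMap.snd R A B) with hP
  have hPmem : ∀ x : A × B, x ∈ P ↔ u x.1 = p • x.2 := fun x => by
    rw [hP, LinearMap.mem_ker]
    simp [sub_eq_zero]
  let α : P →ₗ[R] (A ⧸ pA) := pA.mkQ ∘ₗ LinearMap.fst R A B ∘ₗ P.subtype
  let β : P →ₗ[R] Q := (LinearMap.range u).mkQ ∘ₗ LinearMap.snd R A B ∘ₗ P.subtype
  have hαr : LinearMap.range α = LinearMap.ker ubar := by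
    ext z
    obtain ⟨a, rfl⟩ := Submodule.mkQ_surjective _ z
    constructor
    · rintro ⟨x, hx⟩
      rw [← hx, LinearMap.mem_ker]
      show pB.mkQ (u (x : A × B).1) = 0
      rw [(hPmem _).1 x.2]
      exact (Submodule.Quotient.mk_eq_zero _).2 ⟨_, rfl⟩
    · intro h
      have h' : u a ∈ pB := (Submodule.Quotient.mk_eq_zero _).1 (LinearMap.mem_ker.1 h)
      obtain ⟨b, hb⟩ := h'
      exact ⟨⟨(a, b), (hPmem _).2 hb.symm⟩, rfl⟩
  have hβr : LinearMap.range β = LinearMap.ker (pMul R p Q) := by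
    ext z
    obtain ⟨b, rfl⟩ := Submodule.mkQ_surjective _ z
    constructor
    · rintro ⟨x, hx⟩
      rw [← hx, LinearMap.mem_ker]
      show p • (LinearMap.range u).mkQ (x : A × B).2 = 0
      rw [← map_nsmul, ← (hPmem _).1 x.2]
      exact (Submodule.Quotient.mk_eq_zero _).2 ⟨_, rfl⟩
    · intro h
      have h' : p • b ∈ LinearMap.range u := by
        rw [← Submodule.Quotient.mk_eq_zero, Submodule.Quotient.mk_smul]
        exact h
      obtain ⟨a, ha⟩ := h'
      exact ⟨⟨(a, b), (hPmem _).2 ha⟩, rfl⟩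
  have hker : LinearMap.ker β ≤ LinearMap.ker α := by
    intro x hx
    rw [LinearMap.mem_ker] at hx ⊢
    have hx' := (hPmem _).1 x.2
    have h' : (x : A × B).2 ∈ LinearMap.range u := (Submodule.Quotient.mk_eq_zero _).1 hx
    obtain ⟨a₀, ha₀⟩ := h'
    apply (Submodule.Quotient.mk_eq_zero _).2
    refine ⟨a₀, ?_⟩
    apply hu
    show u (p • a₀) = u (x : A × B).1
    rw [hx', ← ha₀, map_nsmul]
  -- the connecting map `δ : Q[p] → ker ū`
  let α' : P →ₗ[R] LinearMap.ker ubar :=
    LinearMap.codRestrict (LinearMap.ker ubar) α (fun x => by rw [← hαr]; exact ⟨x, rfl⟩)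
  have hα'ker : LinearMap.ker β ≤ LinearMap.ker α' := by
    intro x hx
    rw [LinearMap.mem_ker]
    apply Subtype.ext
    exact LinearMap.mem_ker.1 (hker hx)
  let α'' : (P ⧸ LinearMap.ker β) →ₗ[R] LinearMap.ker ubar := (LinearMap.ker β).liftQ α' hα'ker
  let e₁ : (P ⧸ LinearMap.ker β) ≃ₗ[R] LinearMap.ker (pMul R p Q) :=
    β.quotKerEquivRange.trans (LinearEquiv.ofEq _ _ hβr)
  have he₁ : ∀ x : P, ((e₁ ((LinearMap.ker β).mkQ x) : LinearMap.ker (pMul R p Q)) : Q) = β x :=
    fun x => rfl
  let δ : LinearMap.ker (pMul R p Q) →ₗ[R] LinearMap.ker ubar := α'' ∘ₗ e₁.symm.toLinearMap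
  have hδmk : ∀ x : P, δ (e₁ ((LinearMap.ker β).mkQ x)) = α' x := fun x => by
    show α'' (e₁.symm (e₁ ((LinearMap.ker β).mkQ x))) = α' x
    rw [LinearEquiv.symm_apply_apply]
    rfl
  have hδs : Function.Surjective δ := by
    intro z
    have hz : (z : A ⧸ pA) ∈ LinearMap.range α := by rw [hαr]; exact z.2
    obtain ⟨x, hx⟩ := hz
    refine ⟨e₁ ((LinearMap.ker β).mkQ x), ?_⟩
    rw [hδmk]
    exact Subtype.ext hx
  have hγle : LinearMap.range γ ≤ LinearMap.ker (pMul R p Q) := by
    rintro _ ⟨b, rfl⟩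
    rw [LinearMap.mem_ker]
    show p • (LinearMap.range u).mkQ (b : B) = 0
    rw [← map_nsmul]
    have hb : p • (b : B) = 0 := b.2
    rw [hb, map_zero]
  set S : Submodule R (LinearMap.ker (pMul R p Q)) :=
    (LinearMap.range γ).comap (LinearMap.ker (pMul R p Q)).subtype with hS
  have hδk : LinearMap.ker δ = S := by
    ext z
    obtain ⟨y, rfl⟩ := e₁.surjective z
    obtain ⟨x, rfl⟩ := Submodule.mkQ_surjective _ y
    rw [LinearMap.mem_ker, hδmk, hS, Submodule.mem_comap]
    have hx' := (hPmem _).1 x.2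
    show α' x = 0 ↔ β x ∈ LinearMap.range γ
    constructor
    · intro h
      have h0 : α x = 0 := congrArg Subtype.val h
      have h' : (x : A × B).1 ∈ pA := (Submodule.Quotient.mk_eq_zero _).1 h0
      obtain ⟨a₀, ha₀⟩ := h'
      have hb : (x : A × B).2 - u a₀ ∈ LinearMap.ker (pMul R p B) := by
        show p • ((x : A × B).2 - u a₀) = 0
        rw [smul_sub, ← hx', ← map_nsmul]
        have : p • a₀ = (x : A × B).1 := ha₀
        rw [this, sub_self]
      refine ⟨⟨_, hb⟩, ?_⟩
      show (LinearMap.range u).mkQ ((x : A × B).2 - u a₀) = (LinearMap.range u).mkQ (x : A × B).2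
      rw [map_sub, sub_eq_self]
      exact (Submodule.Quotient.mk_eq_zero _).2 ⟨a₀, rfl⟩
    · rintro ⟨b', hb'⟩
      have hb'' : (LinearMap.range u).mkQ (b' : B) = (LinearMap.range u).mkQ (x : A × B).2 := hb'
      have h3 : (x : A × B).2 - (b' : B) ∈ LinearMap.range u := by
        rw [← Submodule.Quotient.mk_eq_zero, Submodule.Quotient.mk_sub, sub_eq_zero]
        exact hb''.symm
      obtain ⟨a₀, ha₀⟩ := h3
      apply Subtype.ext
      show pA.mkQ (x : A × B).1 = 0
      apply (Submodule.Quotient.mk_eq_zero _).2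
      refine ⟨a₀, ?_⟩
      apply hu
      show u (p • a₀) = u (x : A × B).1
      have hpb' : p • (b' : B) = 0 := b'.2
      rw [hx', map_nsmul, ha₀, smul_sub, hpb', sub_zero]
  let e₂ : (LinearMap.ker (pMul R p Q) ⧸ S) ≃ₗ[R] LinearMap.ker ubar :=
    (Submodule.quotEquivOfEq _ _ hδk.symm).trans (δ.quotKerEquivOfSurjective hδs)
  let e₃ : S ≃ₗ[R] LinearMap.range γ := Submodule.comapSubtypeEquivOfLe hγle
  have h4 := F.add S
  have hS2 : F.f (LinearMap.ker (pMul R p Q) ⧸ S) = F.f (LinearMap.ker ubar) := F.iso e₂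
  have hS3 : F.f S = F.f (LinearMap.range γ) := F.iso e₃
  rw [hS2, hS3] at h4
  have h5 := F.ker_pMul_eq_quot_range_pMul Q
  rw [h1, h2, h3]
  linarith

/-- The `p`-Herbrand lemma for a submodule of finite index. -/
theorem herbrand_submodule (S : Submodule R B) [Finite (B ⧸ S)]
    [Finite (S ⧸ LinearMap.range (pMul R p S))]
    [Finite (B ⧸ LinearMap.range (pMul R p B))] [Finite (LinearMap.ker (pMul R p B))] :
    F.f (S ⧸ LinearMap.range (pMul R p S)) + F.f (LinearMap.ker (pMul R p B)) =
      F.f (B ⧸ LinearMap.range (pMul R p B)) + F.f (LinearMap.ker (pMul R p S)) := by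
  haveI : Finite (B ⧸ LinearMap.range S.subtype) := by
    rw [Submodule.range_subtype]; infer_instance
  exact herbrand F S.subtype S.subtype_injective

/-- Torsion-free case for a submodule of finite index: `f(S/pS) = f(B/pB)`. -/
theorem lattice_submodule (S : Submodule R B) (hB : ∀ b : B, p • b = 0 → b = 0) [Finite (B ⧸ S)]
    [Finite (S ⧸ LinearMap.range (pMul R p S))]
    [Finite (B ⧸ LinearMap.range (pMul R p B))] :
    F.f (S ⧸ LinearMap.range (pMul R p S)) = F.f (B ⧸ LinearMap.range (pMul R p B)) := by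
  haveI : Finite (B ⧸ LinearMap.range S.subtype) := by
    rw [Submodule.range_subtype]; infer_instance
  exact F.lattice S.subtype S.subtype_injective hB

/-- A module on which `p` is injective has trivial `p`-torsion part, so `f` vanishes on it. -/
theorem f_ker_pMul_eq_zero (hA : ∀ a : A, p • a = 0 → a = 0) :
    F.f (LinearMap.ker (pMul R p A)) = 0 := by
  haveI : Subsingleton (LinearMap.ker (pMul R p A)) :=
    ⟨fun a a' => Subtype.ext ((hA a a.2).trans (hA a' a'.2).symm)⟩
  exact F.eq_zero_of_subsingleton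

end Herbrand

end Fermat.Agent.S56.Loc.EC.Units
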