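/-
S56 / E-ECp / (L6) part 1 (helper5): `ℤ[C]`-modules from group actions, and exactness modulo `p`.

* `RepMod ρ` : the additive group `A` with the `MonoidAlgebra ℤ C`-module structure defined by
  `ρ : C →* AddMonoid.End A` (a type synonym; `RepMod.mk`, `RepMod.out` are the identity maps);
  `RepMod.of_smul : of c • a = ρ c a`; `RepMod.lin`, `RepMod.linEquiv` (equivariant additive maps are
  linear), `RepMod.submodule` (stable subgroups are submodules).
* `linOfCommutes` : an additive map between `ℤ[C]`-modules commuting with all `of c • ·` is linear.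
* `Herbrand.quot_exact`, `Herbrand.f_quot_of_exact`, `Herbrand.finite_quot_of_exact`,
  `Herbrand.f_ker_of_exact` : a short exact sequence with `p`-torsion-free cokernel stays exact mod `p`
  and has the same `p`-torsion as its kernel; `Herbrand.f_quot_eq_f_range`.
-/
import Mathlib
import Fermat.Agent.S56.Loc.EC.Units.Herbrand

set_option autoImplicit false
set_option linter.unusedSectionVars false
set_option linter.style.haveILetI false

namespace Fermat.Agent.S56.Loc.EC.Units

open Fermat.Agent.S56.GEC.Induction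

/-- An additive group `A` with the `ℤ[C]`-module structure defined by `ρ : C →* AddMonoid.End A`. -/
def RepMod {C A : Type} [Monoid C] [AddCommGroup A] (_ρ : C →* AddMonoid.End A) : Type := A

namespace RepMod

variable {C A A' : Type} [Monoid C] [AddCommGroup A] [AddCommGroup A']
  (ρ : C →* AddMonoid.End A) (ρ' : C →* AddMonoid.End A')

instance : AddCommGroup (RepMod ρ) := inferInstanceAs (AddCommGroup A)

/-- The identity, from `A` to `RepMod ρ`. -/
def mk : A ≃+ RepMod ρ := AddEquiv.refl A

/-- The identity, from `RepMod ρ` to `A`. -/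
def out : RepMod ρ ≃+ A := AddEquiv.refl A

@[simp] theorem out_mk (a : A) : out ρ (mk ρ a) = a := rfl
@[simp] theorem mk_out (a : RepMod ρ) : mk ρ (out ρ a) = a := rfl

/-- The ring homomorphism `ℤ[C] → End A`. -/
noncomputable def ringHom : MonoidAlgebra ℤ C →+* AddMonoid.End A :=
  (MonoidAlgebra.lift ℤ (AddMonoid.End A) C ρ : MonoidAlgebra ℤ C →+* AddMonoid.End A)

noncomputable instance : Module (MonoidAlgebra ℤ C) (RepMod ρ) :=
  Module.compHom A (ringHom ρ)

theorem smul_def (r : MonoidAlgebra ℤ C) (a : RepMod ρ) :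
    r • a = mk ρ (ringHom ρ r (out ρ a)) := rfl

theorem of_smul (c : C) (a : RepMod ρ) :
    (MonoidAlgebra.of ℤ C c) • a = mk ρ (ρ c (out ρ a)) := by
  rw [smul_def, ringHom]
  simp

theorem single_smul (c : C) (n : ℤ) (a : RepMod ρ) :
    (MonoidAlgebra.single c n : MonoidAlgebra ℤ C) • a = n • mk ρ (ρ c (out ρ a)) := by
  rw [smul_def, ringHom]
  simp

variable {ρ ρ'}

/-- An equivariant additive map is `ℤ[C]`-linear. -/
noncomputable def lin (φ : A →+ A') (hφ : ∀ c a, φ (ρ c a) = ρ' c (φ a)) :
    RepMod ρ →ₗ[MonoidAlgebra ℤ C] RepMod ρ' where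
  toFun a := mk ρ' (φ (out ρ a))
  map_add' a b := by simp
  map_smul' r a := by
    induction r using MonoidAlgebra.induction_on with
    | of c =>
      rw [RingHom.id_apply, of_smul, of_smul]
      simp [hφ]
    | add x y hx hy =>
      rw [RingHom.id_apply] at hx hy ⊢
      rw [add_smul, add_smul, map_add, map_add, map_add, hx, hy]
    | smul n x hx =>
      rw [RingHom.id_apply] at hx ⊢
      rw [smul_assoc, smul_assoc, map_zsmul, map_zsmul, map_zsmul, hx]

@[simp] theorem lin_apply (φ : A →+ A') (hφ : ∀ c a, φ (ρ c a) = ρ' c (φ a)) (a : RepMod ρ) :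
    lin φ hφ a = mk ρ' (φ (out ρ a)) := rfl

/-- An equivariant additive equivalence is a `ℤ[C]`-linear equivalence. -/
noncomputable def linEquiv (φ : A ≃+ A') (hφ : ∀ c a, φ (ρ c a) = ρ' c (φ a)) :
    RepMod ρ ≃ₗ[MonoidAlgebra ℤ C] RepMod ρ' :=
  { lin (φ : A →+ A') hφ with
    invFun := fun a => mk ρ (φ.symm (out ρ' a))
    left_inv := fun a => by simp [lin]
    right_inv := fun a => by simp [lin] }

/-- A stable subgroup is a `ℤ[C]`-submodule. -/
def submodule (S : AddSubgroup A) (hS : ∀ c, ∀ a ∈ S, ρ c a ∈ S) :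
    Submodule (MonoidAlgebra ℤ C) (RepMod ρ) where
  carrier := {a | out ρ a ∈ S}
  add_mem' {a b} ha hb := S.add_mem ha hb
  zero_mem' := S.zero_mem
  smul_mem' r a ha := by
    induction r using MonoidAlgebra.induction_on with
    | of c =>
      rw [of_smul]
      exact hS c _ ha
    | add x y hx hy =>
      rw [add_smul]
      exact S.add_mem hx hy
    | smul n x hx =>
      rw [smul_assoc]
      exact S.zsmul_mem hx n

theorem mem_submodule {S : AddSubgroup A} {hS : ∀ c, ∀ a ∈ S, ρ c a ∈ S} {a : RepMod ρ} :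
    a ∈ submodule S hS ↔ out ρ a ∈ S := Iff.rfl

theorem nsmul_out (n : ℕ) (a : RepMod ρ) : out ρ (n • a) = n • out ρ a := map_nsmul _ _ _

end RepMod


section LinOfCommutes

variable {C : Type} [Monoid C] {M N : Type} [AddCommGroup M] [Module (MonoidAlgebra ℤ C) M]
  [AddCommGroup N] [Module (MonoidAlgebra ℤ C) N]

/-- An additive map commuting with the group elements is `ℤ[C]`-linear. -/
def linOfCommutes (φ : M →+ N)
    (h : ∀ (c : C) (m : M), φ (MonoidAlgebra.of ℤ C c • m) = MonoidAlgebra.of ℤ C c • φ m) :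
    M →ₗ[MonoidAlgebra ℤ C] N where
  toFun := φ
  map_add' := φ.map_add
  map_smul' r m := by
    induction r using MonoidAlgebra.induction_on with
    | of c => exact h c m
    | add x y hx hy =>
      rw [RingHom.id_apply] at hx hy ⊢
      rw [add_smul, add_smul, map_add, hx, hy]
    | smul n x hx =>
      rw [RingHom.id_apply] at hx ⊢
      rw [smul_assoc, smul_assoc, map_zsmul, hx]

@[simp] theorem linOfCommutes_apply (φ : M →+ N)
    (h : ∀ (c : C) (m : M), φ (MonoidAlgebra.of ℤ C c • m) = MonoidAlgebra.of ℤ C c • φ m)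
    (m : M) : linOfCommutes φ h m = φ m := rfl

/-- A subgroup stable under the group elements is a `ℤ[C]`-submodule. -/
def submoduleOfStable (S : AddSubgroup M)
    (h : ∀ (c : C), ∀ m ∈ S, MonoidAlgebra.of ℤ C c • m ∈ S) : Submodule (MonoidAlgebra ℤ C) M where
  carrier := S
  add_mem' := S.add_mem
  zero_mem' := S.zero_mem
  smul_mem' r m hm := by
    induction r using MonoidAlgebra.induction_on with
    | of c => exact h c m hm
    | add x y hx hy =>
      rw [add_smul]
      exact S.add_mem hx hy
    | smul n x hx =>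
      rw [smul_assoc]
      exact S.zsmul_mem hx n

end LinOfCommutes

namespace Herbrand

variable {R : Type} [Ring R] {p : ℕ} (F : AddInv R p)
variable {A' A A'' : Type} [AddCommGroup A'] [Module R A'] [AddCommGroup A] [Module R A]
  [AddCommGroup A''] [Module R A'']

/-- The map induced on `· / p` by a linear map. -/
def quotMap (φ : A →ₗ[R] A'') :
    (A ⧸ LinearMap.range (pMul R p A)) →ₗ[R] (A'' ⧸ LinearMap.range (pMul R p A'')) :=
  Submodule.mapQ _ _ φ (by
    rintro _ ⟨a, rfl⟩
    exact ⟨φ a, by simp⟩)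

@[simp] theorem quotMap_mk (φ : A →ₗ[R] A'') (a : A) :
    quotMap (p := p) φ (Submodule.Quotient.mk a) = Submodule.Quotient.mk (φ a) := rfl

/-- Short exact sequences with `p`-torsion-free cokernel stay exact modulo `p`. -/
theorem quot_exact (i : A' →ₗ[R] A) (q : A →ₗ[R] A'') (hi : Function.Injective i)
    (hq : Function.Surjective q) (hex : Function.Exact i q)
    (hA'' : ∀ a : A'', p • a = 0 → a = 0) :
    Function.Injective (quotMap (p := p) i) ∧ Function.Surjective (quotMap (p := p) q) ∧
      Function.Exact (quotMap (p := p) i) (quotMap (p := p) q) := by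
  refine ⟨?_, ?_, ?_⟩
  · rw [injective_iff_map_eq_zero]
    intro z hz
    obtain ⟨a', rfl⟩ := Submodule.mkQ_surjective _ z
    have h1 : i a' ∈ LinearMap.range (pMul R p A) := (Submodule.Quotient.mk_eq_zero _).1 hz
    obtain ⟨a, ha⟩ := h1
    have h2 : q a = 0 := by
      apply hA''
      rw [← map_nsmul]
      have : p • a = i a' := ha
      rw [this]
      exact (hex (i a')).2 ⟨a', rfl⟩
    obtain ⟨a₁, ha₁⟩ := (hex a).1 h2
    apply (Submodule.Quotient.mk_eq_zero _).2
    refine ⟨a₁, ?_⟩
    apply hi
    show i (p • a₁) = i a'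
    rw [map_nsmul, ha₁]
    exact ha
  · intro z
    obtain ⟨a'', rfl⟩ := Submodule.mkQ_surjective _ z
    obtain ⟨a, rfl⟩ := hq a''
    exact ⟨Submodule.Quotient.mk a, rfl⟩
  · intro z
    obtain ⟨a, rfl⟩ := Submodule.mkQ_surjective _ z
    constructor
    · intro h
      have h1 : q a ∈ LinearMap.range (pMul R p A'') := (Submodule.Quotient.mk_eq_zero _).1 h
      obtain ⟨a'', ha''⟩ := h1
      obtain ⟨a₁, rfl⟩ := hq a''
      have h2 : q (a - p • a₁) = 0 := by
        rw [map_sub, map_nsmul, sub_eq_zero]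
        exact ha''.symm
      obtain ⟨a', ha'⟩ := (hex _).1 h2
      refine ⟨Submodule.Quotient.mk a', ?_⟩
      show (Submodule.Quotient.mk (i a') : A ⧸ LinearMap.range (pMul R p A)) =
        Submodule.Quotient.mk a
      rw [ha', Submodule.Quotient.mk_sub, sub_eq_self]
      exact (Submodule.Quotient.mk_eq_zero _).2 ⟨a₁, rfl⟩
    · rintro ⟨y, hy⟩
      obtain ⟨a', rfl⟩ := Submodule.mkQ_surjective _ y
      rw [← hy]
      show (Submodule.Quotient.mk (q (i a')) : A'' ⧸ LinearMap.range (pMul R p A'')) = 0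
      rw [(hex (i a')).2 ⟨a', rfl⟩]
      rfl

/-- `f(A/p) = f(A'/p) + f(A''/p)` for a short exact sequence with `p`-torsion-free cokernel. -/
theorem f_quot_of_exact (i : A' →ₗ[R] A) (q : A →ₗ[R] A'') (hi : Function.Injective i)
    (hq : Function.Surjective q) (hex : Function.Exact i q)
    (hA'' : ∀ a : A'', p • a = 0 → a = 0)
    [Finite (A ⧸ LinearMap.range (pMul R p A))] :
    F.f (A ⧸ LinearMap.range (pMul R p A)) =
      F.f (A' ⧸ LinearMap.range (pMul R p A')) + F.f (A'' ⧸ LinearMap.range (pMul R p A'')) := by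
  obtain ⟨h1, h2, h3⟩ := quot_exact (p := p) i q hi hq hex hA''
  exact F.add_of_exact _ _ h1 h2 h3

/-- Finiteness of `A/p` from that of `A'/p` and `A''/p`. -/
theorem finite_quot_of_exact (i : A' →ₗ[R] A) (q : A →ₗ[R] A'') (hi : Function.Injective i)
    (hq : Function.Surjective q) (hex : Function.Exact i q)
    (hA'' : ∀ a : A'', p • a = 0 → a = 0)
    [Finite (A' ⧸ LinearMap.range (pMul R p A'))] [Finite (A'' ⧸ LinearMap.range (pMul R p A''))] :
    Finite (A ⧸ LinearMap.range (pMul R p A)) := by
  obtain ⟨h1, h2, h3⟩ := quot_exact (p := p) i q hi hq hex hA''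
  set T := A ⧸ LinearMap.range (pMul R p A)
  set ib := quotMap (p := p) i
  set qb := quotMap (p := p) q
  haveI : Finite (LinearMap.range ib) := Finite.of_surjective ib.rangeRestrict
    ib.surjective_rangeRestrict
  have e : (T ⧸ LinearMap.range ib) ≃ₗ[R] (A'' ⧸ LinearMap.range (pMul R p A'')) :=
    (Submodule.quotEquivOfEq _ _ (LinearMap.exact_iff.1 h3).symm).trans
      (qb.quotKerEquivOfSurjective h2)
  haveI : Finite (T ⧸ LinearMap.range ib) := Finite.of_equiv _ e.symm.toEquiv
  haveI : Finite (LinearMap.range ib).toAddSubgroup :=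
    inferInstanceAs (Finite (LinearMap.range ib))
  haveI : Finite (T ⧸ (LinearMap.range ib).toAddSubgroup) :=
    inferInstanceAs (Finite (T ⧸ LinearMap.range ib))
  exact Finite.of_addSubgroup_quotient (LinearMap.range ib).toAddSubgroup

/-- `f(A[p]) = f(A'[p])` for a short exact sequence with `p`-torsion-free cokernel. -/
theorem f_ker_of_exact (i : A' →ₗ[R] A) (q : A →ₗ[R] A'') (hi : Function.Injective i)
    (hex : Function.Exact i q) (hA'' : ∀ a : A'', p • a = 0 → a = 0)
    [Finite (LinearMap.ker (pMul R p A))] :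
    F.f (LinearMap.ker (pMul R p A)) = F.f (LinearMap.ker (pMul R p A')) := by
  haveI : Finite (LinearMap.ker (pMul R p A')) := finite_ker_pMul_of_injective i hi
  let j : LinearMap.ker (pMul R p A') →ₗ[R] LinearMap.ker (pMul R p A) :=
    LinearMap.codRestrict _ (i ∘ₗ (LinearMap.ker (pMul R p A')).subtype) (fun a => by
      have ha : p • (a : A') = 0 := a.2
      show p • i (a : A') = 0
      rw [← map_nsmul, ha, map_zero])
  have hj : Function.Injective j := fun a a' h => by
    apply Subtype.ext
    apply hi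
    exact congrArg Subtype.val h
  have hjs : Function.Surjective j := by
    intro a
    have ha : p • (a : A) = 0 := a.2
    have h2 : q (a : A) = 0 := by
      apply hA''
      rw [← map_nsmul, ha, map_zero]
    obtain ⟨a', ha'⟩ := (hex _).1 h2
    have hpa' : p • a' = 0 := by
      apply hi
      rw [map_nsmul, ha', ha, map_zero]
    exact ⟨⟨a', hpa'⟩, Subtype.ext ha'⟩
  exact (F.iso (LinearEquiv.ofBijective j ⟨hj, hjs⟩)).symm

/-- If `ker θ = p M` then `f(M/pM) = f(range θ)`. -/
theorem f_quot_eq_f_range {M N : Type} [AddCommGroup M] [Module R M] [AddCommGroup N] [Module R N]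
    (θ : M →ₗ[R] N) (hθ : LinearMap.ker θ = LinearMap.range (pMul R p M))
    [Finite (M ⧸ LinearMap.range (pMul R p M))] :
    F.f (M ⧸ LinearMap.range (pMul R p M)) = F.f (LinearMap.range θ) :=
  F.iso ((Submodule.quotEquivOfEq _ _ hθ.symm).trans θ.quotKerEquivRange)

end Herbrand

end Fermat.Agent.S56.Loc.EC.Units
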