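/-
S56 / E-ECp / (L6) part 2 (helper5): the `ℤ[C]`-modules of the units of a DVR with a group action.

Setting: `C` a group acting on a discrete valuation ring `B` and on its fraction field `K` by ring
automorphisms (`MulSemiringAction`), compatibly (`hBK`).

* `rhoAdd C B`, `rhoUnits C M` : the actions on `(B, +)` and on `Additive Mˣ`;
  `MB C B`, `MU C B`, `MK C K`, `Triv C A` : the corresponding `ℤ[C]`-modules (`RepMod`).
* `Pw C B n` (`𝔪 ^ n ⊆ B`), `Un C B n` (`U^(n) ⊆ Bˣ`) as `ℤ[C]`-submodules.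
* `iotaUK`, `valLin` : the valuation sequence `0 → Bˣ → Kˣ → ℤ → 0` of `ℤ[C]`-modules
  (`iotaUK_injective`, `valLin_surjective`, `exact_iotaUK_valLin`).
* `subOne : U^(n) → B / 𝔪^(n+e)`, `u ↦ u - 1` (for `e ≤ n`), and `inclQ : 𝔪^n → B / 𝔪^(n+e)`:
  `ℤ[C]`-linear with the same range (`range_subOne`, `range_inclQ`) and kernels `p • U^(n)`,
  `p • 𝔪^n` when `(p) = 𝔪^e`, `e + 1 ≤ (p - 1) n` (`ker_subOne`, `ker_inclQ`).
-/
import Mathlib
import Fermat.Agent.S56.Loc.EC.Units.Modules
import Fermat.Agent.S55.Local.ValZ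
import Fermat.Agent.S55.Local.UnitFiltration
import Fermat.Agent.S55.Local.PowerIndex
import Fermat.Agent.S55.Local.PowerIndex2

set_option autoImplicit false
set_option linter.unusedSectionVars false
set_option linter.style.haveILetI false

namespace Fermat.Agent.S56.Loc.EC.Units

open Fermat.Agent.S56.GEC.Induction Fermat.Agent.S55.Local IsLocalRing

section Actions

variable (C : Type) [Group C]

/-- The action on the additive group of a ring. -/
def rhoAdd (B : Type) [Ring B] [MulSemiringAction C B] : C →* AddMonoid.End B :=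
  DistribMulAction.toAddMonoidEnd C B

@[simp] theorem rhoAdd_apply (B : Type) [Ring B] [MulSemiringAction C B] (c : C) (b : B) :
    rhoAdd C B c b = c • b := rfl

/-- The action on the units of a monoid, written additively. -/
def rhoUnits (M : Type) [Monoid M] [MulDistribMulAction C M] :
    C →* AddMonoid.End (Additive Mˣ) where
  toFun c := MonoidHom.toAdditive (Units.map (MulDistribMulAction.toMonoidHom M c))
  map_one' := by
    ext u
    show (1 : C) • ((Additive.toMul u : Mˣ) : M) = ((Additive.toMul u : Mˣ) : M)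
    rw [one_smul]
  map_mul' c c' := by
    ext u
    show (c * c') • ((Additive.toMul u : Mˣ) : M) = c • (c' • ((Additive.toMul u : Mˣ) : M))
    rw [mul_smul]

@[simp] theorem rhoUnits_apply (M : Type) [Monoid M] [MulDistribMulAction C M] (c : C)
    (u : Additive Mˣ) :
    ((Additive.toMul (rhoUnits C M c u) : Mˣ) : M) = c • ((Additive.toMul u : Mˣ) : M) := rfl

end Actions

section Setting

variable (C : Type) [Group C]
  (B : Type) [CommRing B] [IsDomain B] [IsDiscreteValuationRing B]
  (K : Type) [Field K] [Algebra B K] [IsFractionRing B K]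
  [MulSemiringAction C B] [MulSemiringAction C K]

/-- The `ℤ[C]`-module `B` (additive group). -/
abbrev MB : Type := RepMod (rhoAdd C B)

/-- The `ℤ[C]`-module `Bˣ`. -/
abbrev MU : Type := RepMod (rhoUnits C B)

/-- The `ℤ[C]`-module `Kˣ`. -/
abbrev MK : Type := RepMod (rhoUnits C K)

/-- An abelian group with trivial `C`-action. -/
abbrev Triv (A : Type) [AddCommGroup A] : Type := RepMod (1 : C →* AddMonoid.End A)

variable {C B}

/-- Ring automorphisms preserve the powers of the maximal ideal. -/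
theorem smul_mem_maximalIdeal_pow (c : C) {n : ℕ} {x : B} (hx : x ∈ maximalIdeal B ^ n) :
    c • x ∈ maximalIdeal B ^ n := by
  set f : B →+* B := MulSemiringAction.toRingHom C B c with hf
  have h1 : Ideal.map f (maximalIdeal B) ≤ maximalIdeal B := by
    rw [Ideal.map_le_iff_le_comap]
    intro y hy
    rw [Ideal.mem_comap, mem_maximalIdeal, mem_nonunits_iff]
    intro hu
    have hy' : ¬ IsUnit y := (mem_maximalIdeal _).1 hy
    apply hy'
    have : IsUnit (c⁻¹ • (c • y)) := by
      have h2 : IsUnit ((MulSemiringAction.toRingHom C B c⁻¹) (f y)) := hu.map _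
      exact h2
    rwa [inv_smul_smul] at this
  have h2 : Ideal.map f (maximalIdeal B ^ n) ≤ maximalIdeal B ^ n := by
    rw [Ideal.map_pow]
    exact Ideal.pow_right_mono h1 n
  exact h2 (Ideal.mem_map_of_mem f hx)

variable (C B)

/-- The submodule `𝔪 ^ n` of `B`. -/
def Pw (n : ℕ) : Submodule (MonoidAlgebra ℤ C) (MB C B) :=
  RepMod.submodule (maximalIdeal B ^ n).toAddSubgroup (fun c _ ha => smul_mem_maximalIdeal_pow c ha)

/-- The submodule `U^(n)` of `Bˣ`. -/
def Un (n : ℕ) : Submodule (MonoidAlgebra ℤ C) (MU C B) :=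
  RepMod.submodule (unitFilAdd B n) (fun c a ha => by
    rw [mem_unitFilAdd, mem_unitFil] at ha ⊢
    have h : ((Additive.toMul (rhoUnits C B c a) : Bˣ) : B) - 1 =
        c • (((Additive.toMul a : Bˣ) : B) - 1) := by
      rw [rhoUnits_apply, smul_sub, smul_one]
    rw [h]
    exact smul_mem_maximalIdeal_pow c ha)

variable {C B}

theorem mem_Pw {n : ℕ} {x : MB C B} : x ∈ Pw C B n ↔ RepMod.out _ x ∈ maximalIdeal B ^ n :=
  Iff.rfl

theorem mem_Un {n : ℕ} {u : MU C B} :
    u ∈ Un C B n ↔ ((Additive.toMul (RepMod.out _ u) : Bˣ) : B) - 1 ∈ maximalIdeal B ^ n := by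
  show RepMod.out _ u ∈ unitFilAdd B n ↔ _
  rw [mem_unitFilAdd, mem_unitFil]

end Setting

section Valuation

variable {C : Type} [Group C]
  {B : Type} [CommRing B] [IsDomain B] [IsDiscreteValuationRing B]
  {K : Type} [Field K] [Algebra B K] [IsFractionRing B K]
  [MulSemiringAction C B] [MulSemiringAction C K]
  (hBK : ∀ (c : C) (b : B), algebraMap B K (c • b) = c • algebraMap B K b)

/-- The action of `c` on `Kˣ`. -/
def actK (c : C) : Kˣ →* Kˣ := Units.map (MulDistribMulAction.toMonoidHom K c)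

@[simp] theorem coe_actK (c : C) (x : Kˣ) : ((actK c x : Kˣ) : K) = c • (x : K) := rfl

/-- The action of `c` on `Bˣ`. -/
def actB (c : C) : Bˣ →* Bˣ := Units.map (MulDistribMulAction.toMonoidHom B c)

@[simp] theorem coe_actB (c : C) (x : Bˣ) : ((actB c x : Bˣ) : B) = c • (x : B) := rfl

include hBK in
theorem actK_map (c : C) (u : Bˣ) :
    actK c (Units.map (algebraMap B K).toMonoidHom u) =
      Units.map (algebraMap B K).toMonoidHom (actB c u) := by
  apply Units.ext
  show c • algebraMap B K (u : B) = algebraMap B K (c • (u : B))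
  rw [hBK]

include hBK in
/-- Automorphisms preserve the normalised valuation. -/
theorem valZ_actK (c : C) (x : Kˣ) : valZ B K (actK c x) = valZ B K x := by
  obtain ⟨ϖ, hϖ⟩ := IsDiscreteValuationRing.exists_irreducible B
  have hne : algebraMap B K ϖ ≠ 0 := by simpa using hϖ.ne_zero
  set ϖK : Kˣ := Units.mk0 _ hne with hϖK
  obtain ⟨n, u, hx⟩ := exists_eq_unit_mul_zpow (F := K) hϖ x
  have hx' : x = Units.map (algebraMap B K).toMonoidHom u * ϖK ^ n := by
    apply Units.ext
    rw [hx]
    simp [hϖK]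
  -- `c • ϖ` is again a uniformiser
  have hirr : Irreducible (c • ϖ) := by
    have : Irreducible ((MulSemiringAction.toRingEquiv C B c) ϖ) :=
      (MulEquiv.irreducible_iff (MulSemiringAction.toRingEquiv C B c).toMulEquiv).2 hϖ
    exact this
  obtain ⟨w, hw⟩ := IsDiscreteValuationRing.associated_of_irreducible B hϖ hirr
  have hcϖ : actK c ϖK = Units.map (algebraMap B K).toMonoidHom w * ϖK := by
    apply Units.ext
    show c • algebraMap B K ϖ = algebraMap B K (w : B) * algebraMap B K ϖ
    rw [← hBK, ← hw, map_mul, mul_comm]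
  have h1 : valZ B K (actK c x) = valZ B K ϖK ^ n := by
    rw [hx', map_mul, map_zpow, map_mul, map_zpow, actK_map hBK, hcϖ, map_mul,
      valZ_map_unit, valZ_map_unit, one_mul, one_mul]
  have h2 : valZ B K x = valZ B K ϖK ^ n := by
    rw [hx', map_mul, map_zpow, valZ_map_unit, one_mul]
  rw [h1, h2]

variable (C B K)

/-- The inclusion `Bˣ → Kˣ` as a `ℤ[C]`-linear map. -/
noncomputable def iotaUK : MU C B →ₗ[MonoidAlgebra ℤ C] MK C K :=
  RepMod.lin (MonoidHom.toAdditive (Units.map (algebraMap B K).toMonoidHom)) (fun c a => by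
    show Additive.ofMul (Units.map (algebraMap B K).toMonoidHom (actB c (Additive.toMul a))) =
      Additive.ofMul (actK c (Units.map (algebraMap B K).toMonoidHom (Additive.toMul a)))
    rw [actK_map hBK])

/-- The valuation `Kˣ → ℤ` as a `ℤ[C]`-linear map (trivial action on `ℤ`). -/
noncomputable def valLin : MK C K →ₗ[MonoidAlgebra ℤ C] Triv C ℤ :=
  RepMod.lin (MonoidHom.toAdditiveLeft (valZ B K)) (fun c a => by
    show Multiplicative.toAdd (valZ B K (actK c (Additive.toMul a))) =
      Multiplicative.toAdd (valZ B K (Additive.toMul a))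
    rw [valZ_actK hBK])

theorem iotaUK_injective : Function.Injective (iotaUK C B K hBK) := by
  intro a a' h
  have h' : Units.map (algebraMap B K).toMonoidHom (Additive.toMul (RepMod.out _ a)) =
      Units.map (algebraMap B K).toMonoidHom (Additive.toMul (RepMod.out _ a')) := h
  exact units_map_injective h'

theorem valLin_surjective : Function.Surjective (valLin C B K hBK) := by
  intro n
  obtain ⟨x, hx⟩ := valZ_surjective (O := B) (F := K) (Multiplicative.ofAdd (RepMod.out _ n))
  refine ⟨RepMod.mk _ (Additive.ofMul x), ?_⟩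
  show Multiplicative.toAdd (valZ B K x) = RepMod.out _ n
  rw [hx]
  rfl

theorem exact_iotaUK_valLin : Function.Exact (iotaUK C B K hBK) (valLin C B K hBK) := by
  intro x
  constructor
  · intro h
    have h' : valZ B K (Additive.toMul (RepMod.out _ x)) = 1 := by
      have : Multiplicative.toAdd (valZ B K (Additive.toMul (RepMod.out _ x))) = 0 := h
      exact Multiplicative.toAdd.injective this
    obtain ⟨u, hu⟩ := valZ_eq_one_iff.1 h'
    exact ⟨RepMod.mk _ (Additive.ofMul u), congrArg Additive.ofMul hu⟩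
  · rintro ⟨u, rfl⟩
    show Multiplicative.toAdd (valZ B K (Units.map (algebraMap B K).toMonoidHom
      (Additive.toMul (RepMod.out _ u)))) = 0
    rw [valZ_map_unit]
    rfl

end Valuation

section Filtration

variable {C : Type} [Group C]
  {B : Type} [CommRing B] [IsDomain B] [IsDiscreteValuationRing B] [MulSemiringAction C B]

/-- The underlying element of `B` of an element of the module `Bˣ`. -/
def val1 (u : MU C B) : B := ((Additive.toMul (RepMod.out _ u) : Bˣ) : B)

@[simp] theorem val1_zero : val1 (0 : MU C B) = 1 := rfl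

@[simp] theorem val1_add (u v : MU C B) : val1 (u + v) = val1 u * val1 v := rfl

@[simp] theorem val1_of_smul (c : C) (u : MU C B) :
    val1 (MonoidAlgebra.of ℤ C c • u) = c • val1 u := by
  rw [RepMod.of_smul]
  rfl

theorem val1_nsmul (n : ℕ) (u : MU C B) : val1 (n • u) = val1 u ^ n := by
  induction n with
  | zero => simp
  | succ n ih => rw [succ_nsmul, val1_add, ih, pow_succ]

theorem val1_injective : Function.Injective (val1 : MU C B → B) := by
  intro u v h
  have : (Additive.toMul (RepMod.out _ u) : Bˣ) = Additive.toMul (RepMod.out _ v) := Units.ext h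
  exact this

theorem mem_Un' {n : ℕ} {u : MU C B} : u ∈ Un C B n ↔ val1 u - 1 ∈ maximalIdeal B ^ n := mem_Un

theorem mk_of_smul (c : C) (x : B) :
    MonoidAlgebra.of ℤ C c • (RepMod.mk (rhoAdd C B) x) = RepMod.mk (rhoAdd C B) (c • x) := by
  rw [RepMod.of_smul]
  rfl

variable (C B)

/-- `u ↦ u - 1 mod 𝔪^(n+e)` on `U^(n)`, for `e ≤ n`. -/
noncomputable def subOne {n e : ℕ} (hne : e ≤ n) :
    ↥(Un C B n) →ₗ[MonoidAlgebra ℤ C] (MB C B ⧸ Pw C B (n + e)) :=
  linOfCommutes
    { toFun := fun u => (Pw C B (n + e)).mkQ (RepMod.mk _ (val1 (u : MU C B) - 1))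
      map_zero' := by simp
      map_add' := fun u v => by
        rw [← map_add, ← map_add]
        apply (Submodule.Quotient.eq _).2
        rw [mem_Pw, ← map_sub, RepMod.out_mk]
        have hu := mem_Un'.1 u.2
        have hv := mem_Un'.1 v.2
        have h1 : val1 ((u + v : ↥(Un C B n)) : MU C B) - 1 -
            ((val1 (u : MU C B) - 1) + (val1 (v : MU C B) - 1)) =
            (val1 (u : MU C B) - 1) * (val1 (v : MU C B) - 1) := by
          rw [Submodule.coe_add, val1_add]
          ring
        rw [h1]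
        have h2 : (val1 (u : MU C B) - 1) * (val1 (v : MU C B) - 1) ∈ maximalIdeal B ^ (n + n) := by
          rw [pow_add]
          exact Ideal.mul_mem_mul hu hv
        exact Ideal.pow_le_pow_right (by omega) h2 }
    (fun c u => by
      show (Pw C B (n + e)).mkQ (RepMod.mk _ (val1 ((MonoidAlgebra.of ℤ C c • u : ↥(Un C B n)) :
        MU C B) - 1)) = MonoidAlgebra.of ℤ C c • (Pw C B (n + e)).mkQ (RepMod.mk _
          (val1 (u : MU C B) - 1))
      rw [← map_smul, mk_of_smul, Submodule.coe_smul, val1_of_smul, smul_sub, smul_one])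

theorem subOne_apply {n e : ℕ} (hne : e ≤ n) (u : ↥(Un C B n)) :
    subOne C B hne u = (Pw C B (n + e)).mkQ (RepMod.mk _ (val1 (u : MU C B) - 1)) := rfl

theorem range_subOne {n e : ℕ} (hn : 1 ≤ n) (hne : e ≤ n) :
    LinearMap.range (subOne C B hne) = (Pw C B n).map (Pw C B (n + e)).mkQ := by
  ext z
  constructor
  · rintro ⟨u, rfl⟩
    rw [subOne_apply]
    exact Submodule.mem_map_of_mem (mem_Pw.2 (mem_Un'.1 u.2))
  · rintro ⟨x, hx, rfl⟩
    have hxn : RepMod.out _ x ∈ maximalIdeal B ^ n := hx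
    have hx1 : RepMod.out _ x ∈ maximalIdeal B := by
      have := Ideal.pow_le_pow_right hn hxn
      rwa [pow_one] at this
    let u : MU C B := RepMod.mk _ (Additive.ofMul (oneAddUnit (RepMod.out _ x) hx1))
    have hu : u ∈ Un C B n := by
      rw [mem_Un']
      show ((oneAddUnit (RepMod.out _ x) hx1 : Bˣ) : B) - 1 ∈ _
      rw [coe_oneAddUnit, add_sub_cancel_left]
      exact hxn
    refine ⟨⟨u, hu⟩, ?_⟩
    rw [subOne_apply]
    congr 1
    show RepMod.mk _ (((oneAddUnit (RepMod.out _ x) hx1 : Bˣ) : B) - 1) = x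
    rw [coe_oneAddUnit, add_sub_cancel_left]
    rfl

variable {C B}

variable [IsAdicComplete (maximalIdeal B) B] [Finite (ResidueField B)]
variable {p : ℕ} (hp : p.Prime) {e : ℕ} (hpe : Ideal.span {(p : B)} = maximalIdeal B ^ e)

include hp hpe in
theorem ker_subOne {n : ℕ} (hn : 1 ≤ n) (hne : e ≤ n) (hne' : e + 1 ≤ (p - 1) * n) :
    LinearMap.ker (subOne C B hne) = LinearMap.range (pMul (MonoidAlgebra ℤ C) p ↥(Un C B n)) := by
  have hmap := map_nsmul_unitFilAdd hp hpe hn hne'
  ext u
  rw [LinearMap.mem_ker, subOne_apply, Submodule.mkQ_apply, Submodule.Quotient.mk_eq_zero, mem_Pw,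
    RepMod.out_mk]
  have h1 : val1 (u : MU C B) - 1 ∈ maximalIdeal B ^ (n + e) ↔
      RepMod.out _ (u : MU C B) ∈ unitFilAdd B (n + e) := by
    rw [mem_unitFilAdd, mem_unitFil]
    rfl
  rw [h1, ← hmap]
  constructor
  · rintro ⟨a, ha, hau⟩
    refine ⟨⟨RepMod.mk _ a, ha⟩, ?_⟩
    apply Subtype.ext
    exact hau
  · rintro ⟨v, rfl⟩
    exact ⟨RepMod.out _ (v : MU C B), v.2, rfl⟩

variable (C B)

/-- `𝔪^n → B / 𝔪^(n+e)`. -/
noncomputable def inclQ (n e : ℕ) : ↥(Pw C B n) →ₗ[MonoidAlgebra ℤ C] (MB C B ⧸ Pw C B (n + e)) :=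
  (Pw C B (n + e)).mkQ ∘ₗ (Pw C B n).subtype

theorem range_inclQ (n e : ℕ) :
    LinearMap.range (inclQ C B n e) = (Pw C B n).map (Pw C B (n + e)).mkQ := by
  rw [inclQ, LinearMap.range_comp, Submodule.range_subtype]

variable {C B}

include hpe in
theorem ker_inclQ (n : ℕ) :
    LinearMap.ker (inclQ C B n e) = LinearMap.range (pMul (MonoidAlgebra ℤ C) p ↥(Pw C B n)) := by
  ext x
  rw [LinearMap.mem_ker, inclQ, LinearMap.comp_apply, Submodule.mkQ_apply,
    Submodule.Quotient.mk_eq_zero, Submodule.subtype_apply, mem_Pw]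
  constructor
  · intro h
    obtain ⟨b, hb, hxb⟩ := exists_eq_natCast_mul hpe h
    refine ⟨⟨RepMod.mk _ b, hb⟩, ?_⟩
    apply Subtype.ext
    show p • RepMod.mk (rhoAdd C B) b = (x : MB C B)
    have : RepMod.out _ (p • RepMod.mk (rhoAdd C B) b) = RepMod.out _ (x : MB C B) := by
      rw [RepMod.nsmul_out, RepMod.out_mk, hxb, nsmul_eq_mul]
    exact this
  · rintro ⟨y, rfl⟩
    have hy : RepMod.out _ (y : MB C B) ∈ maximalIdeal B ^ n := y.2
    show RepMod.out _ (p • (y : MB C B)) ∈ _
    rw [RepMod.nsmul_out, nsmul_eq_mul, add_comm, pow_add]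
    exact Ideal.mul_mem_mul (natCast_mem_pow hpe) hy

end Filtration

end Fermat.Agent.S56.Loc.EC.Units
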