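/-
S56 / E-ECp / (L6) part 3 (helper5): the unit count reduced to the additive group.

Setting: `C` a group acting on a complete DVR `B` with finite residue field and on `K = Frac B`
compatibly; `(p) = 𝔪^e`.  For every additive invariant `F : AddInv ℤ[C] p` (helper1):

  **`f_units_eq_f_MB` : `f(Kˣ/p) = f(𝔽_p) + f(Kˣ[p]) + f(B/pB)`**

(`MK C K = Kˣ`, `MB C B = (B, +)`, `Triv C (ZMod p) = 𝔽_p` with trivial action, all as
`ℤ[C]`-modules `RepMod _`).  Proof: valuation sequence `0 → Bˣ → Kˣ → ℤ → 0`; Herbrand lemma for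
`U^(n) ⊆ Bˣ` (`U^(n)` is `p`-torsion-free); `U^(n)/p ≅ 𝔪^n/p` equivariantly (both are the image of
`𝔪^n` in `B/𝔪^(n+e)`); lattice lemma for `𝔪^n ⊆ B`.

Also: `castLin`, `trivQuotEquiv` (`ℤ/p ≅ 𝔽_p`), the finiteness statements `finite_quot_Pw`,
`finite_quot_Un`, `finite_quot_pMul_MB/_Pw/_Un/_MU/_MK`, `finite_ker_pMul_MK`, torsion-freeness
`MB_torsionFree`, `Un_torsionFree`, `range_pMul_MB : p • B = 𝔪^e`, and the generic
`Herbrand.finite_quot_of_ker_eq`, `Herbrand.finite_quot_of_le`, `Herbrand.f_quot_eq_of_range_eq`,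
`RepMod.finite_quot`.
-/
import Mathlib
import Fermat.Agent.S56.Loc.EC.Units.Filtration

set_option autoImplicit false
set_option linter.unusedSectionVars false
set_option linter.style.haveILetI false

namespace Fermat.Agent.S56.Loc.EC.Units

open Fermat.Agent.S56.GEC.Induction Fermat.Agent.S55.Local IsLocalRing

namespace Herbrand

variable {R : Type} [Ring R] {p : ℕ}

/-- If `ker θ = p M` and the target is finite then `M / p M` is finite. -/
theorem finite_quot_of_ker_eq {M N : Type} [AddCommGroup M] [Module R M] [AddCommGroup N]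
    [Module R N] (θ : M →ₗ[R] N) (hθ : LinearMap.ker θ = LinearMap.range (pMul R p M)) [Finite N] :
    Finite (M ⧸ LinearMap.range (pMul R p M)) :=
  Finite.of_equiv (LinearMap.range θ)
    ((Submodule.quotEquivOfEq _ _ hθ.symm).trans θ.quotKerEquivRange).symm.toEquiv

/-- A quotient by a larger submodule is finite. -/
theorem finite_quot_of_le {M : Type} [AddCommGroup M] [Module R M] {S T : Submodule R M}
    (h : S ≤ T) [Finite (M ⧸ S)] : Finite (M ⧸ T) :=
  Finite.of_surjective (Submodule.factor h) (Submodule.factor_surjective h)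

/-- If `ker θ = p M`, `ker θ' = p M'` and `θ`, `θ'` have the same range then
`f(M/pM) = f(M'/pM')`. -/
theorem f_quot_eq_of_range_eq (F : AddInv R p) {M M' N : Type} [AddCommGroup M] [Module R M]
    [AddCommGroup M'] [Module R M'] [AddCommGroup N] [Module R N]
    (θ : M →ₗ[R] N) (θ' : M' →ₗ[R] N)
    (hθ : LinearMap.ker θ = LinearMap.range (pMul R p M))
    (hθ' : LinearMap.ker θ' = LinearMap.range (pMul R p M'))
    (h : LinearMap.range θ = LinearMap.range θ')
    [Finite (M ⧸ LinearMap.range (pMul R p M))] :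
    F.f (M ⧸ LinearMap.range (pMul R p M)) = F.f (M' ⧸ LinearMap.range (pMul R p M')) :=
  F.iso (((Submodule.quotEquivOfEq _ _ hθ.symm).trans θ.quotKerEquivRange).trans
    ((LinearEquiv.ofEq _ _ h).trans
      ((Submodule.quotEquivOfEq _ _ hθ'.symm).trans θ'.quotKerEquivRange).symm))

end Herbrand

section RepModFinite

variable {C A : Type} [Monoid C] [AddCommGroup A] {ρ : C →* AddMonoid.End A}

/-- The quotient of `RepMod ρ` by a stable subgroup of finite index is finite. -/
theorem RepMod.finite_quot (S : AddSubgroup A) (hS : ∀ c, ∀ a ∈ S, ρ c a ∈ S) [Finite (A ⧸ S)] :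
    Finite (RepMod ρ ⧸ RepMod.submodule S hS) := by
  let φ : A ⧸ S → RepMod ρ ⧸ RepMod.submodule S hS :=
    Quotient.map' (fun a => RepMod.mk ρ a) (fun a b hab => by
      rw [QuotientAddGroup.leftRel_apply] at hab
      rw [Submodule.quotientRel_def]
      have : a - b ∈ S := by
        have := S.neg_mem hab
        rwa [neg_add, neg_neg, ← sub_eq_add_neg] at this
      exact this)
  refine Finite.of_surjective φ ?_
  intro z
  obtain ⟨a, rfl⟩ := Submodule.mkQ_surjective _ z
  exact ⟨QuotientAddGroup.mk (RepMod.out ρ a), rfl⟩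

end RepModFinite

section TrivZ

variable (C : Type) [Group C] (p : ℕ)

/-- Reduction mod `p` as a `ℤ[C]`-linear map of trivial modules. -/
noncomputable def castLin : Triv C ℤ →ₗ[MonoidAlgebra ℤ C] Triv C (ZMod p) :=
  RepMod.lin (Int.castAddHom (ZMod p)) (fun _ _ => rfl)

theorem castLin_surjective : Function.Surjective (castLin C p) := by
  intro z
  obtain ⟨n, hn⟩ := ZMod.intCast_surjective (RepMod.out _ z)
  exact ⟨RepMod.mk _ n, hn⟩

theorem ker_castLin :
    LinearMap.ker (castLin C p) = LinearMap.range (pMul (MonoidAlgebra ℤ C) p (Triv C ℤ)) := by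
  ext x
  rw [LinearMap.mem_ker]
  have h1 : castLin C p x = 0 ↔ ((RepMod.out _ x : ℤ) : ZMod p) = 0 := Iff.rfl
  rw [h1, ZMod.intCast_zmod_eq_zero_iff_dvd]
  constructor
  · rintro ⟨y, hy⟩
    refine ⟨RepMod.mk _ y, ?_⟩
    show p • RepMod.mk _ y = x
    have : RepMod.out _ (p • RepMod.mk (1 : C →* AddMonoid.End ℤ) y) = RepMod.out _ x := by
      rw [RepMod.nsmul_out, RepMod.out_mk, hy, nsmul_eq_mul]
    exact this
  · rintro ⟨y, rfl⟩
    refine ⟨RepMod.out _ y, ?_⟩
    show RepMod.out _ (p • y) = _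
    rw [RepMod.nsmul_out, nsmul_eq_mul]

/-- `ℤ / p ≅ 𝔽_p` as trivial `ℤ[C]`-modules. -/
noncomputable def trivQuotEquiv :
    (Triv C ℤ ⧸ LinearMap.range (pMul (MonoidAlgebra ℤ C) p (Triv C ℤ))) ≃ₗ[MonoidAlgebra ℤ C]
      Triv C (ZMod p) :=
  (Submodule.quotEquivOfEq _ _ (ker_castLin C p).symm).trans
    ((castLin C p).quotKerEquivOfSurjective (castLin_surjective C p))

theorem Triv.torsionFree_int (n : ℕ) (hn : n ≠ 0) : ∀ a : Triv C ℤ, n • a = 0 → a = 0 := by
  intro a ha
  have h : RepMod.out _ (n • a) = 0 := by rw [ha]; rfl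
  rw [RepMod.nsmul_out, nsmul_eq_mul] at h
  have h2 : RepMod.out _ a = 0 := by
    rcases mul_eq_zero.1 h with h | h
    · exact absurd (by exact_mod_cast h) hn
    · exact h
  exact h2

instance Triv.finite_zmod [NeZero p] : Finite (Triv C (ZMod p)) :=
  inferInstanceAs (Finite (ZMod p))

instance Triv.finite_quot_int [NeZero p] :
    Finite (Triv C ℤ ⧸ LinearMap.range (pMul (MonoidAlgebra ℤ C) p (Triv C ℤ))) :=
  Finite.of_equiv _ (trivQuotEquiv C p).symm.toEquiv

end TrivZ

section Finiteness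

variable {C : Type} [Group C]
  {B : Type} [CommRing B] [IsDomain B] [IsDiscreteValuationRing B] [MulSemiringAction C B]

local notation "R" => MonoidAlgebra ℤ C

variable (C B) in
/-- `B / 𝔪^n` is finite. -/
theorem finite_quot_Pw [Finite (ResidueField B)] (n : ℕ) : Finite (MB C B ⧸ Pw C B n) := by
  haveI : Finite (B ⧸ maximalIdeal B) := inferInstanceAs (Finite (ResidueField B))
  haveI : Finite (B ⧸ maximalIdeal B ^ n) :=
    Ideal.finite_quotient_pow (IsNoetherian.noetherian _) n
  haveI : Finite (B ⧸ (maximalIdeal B ^ n).toAddSubgroup) :=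
    inferInstanceAs (Finite (B ⧸ maximalIdeal B ^ n))
  exact RepMod.finite_quot _ _

variable (C B) in
/-- `Bˣ / U^(n)` is finite. -/
theorem finite_quot_Un [Finite (ResidueField B)] (n : ℕ) : Finite (MU C B ⧸ Un C B n) := by
  haveI := finiteIndex_unitFil (O := B) n
  haveI : (unitFilAdd B n).FiniteIndex := by
    refine ⟨?_⟩
    rw [unitFilAdd, Subgroup.index_toAddSubgroup]
    exact Subgroup.FiniteIndex.index_ne_zero
  haveI : Finite (Additive Bˣ ⧸ unitFilAdd B n) := inferInstance
  exact RepMod.finite_quot _ _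

variable {p : ℕ} {e : ℕ} (hpe : Ideal.span {(p : B)} = maximalIdeal B ^ e)

include hpe in
theorem MB_torsionFree : ∀ b : MB C B, p • b = 0 → b = 0 := by
  intro b hb
  have h : RepMod.out _ (p • b) = 0 := by rw [hb]; rfl
  rw [RepMod.nsmul_out, nsmul_eq_mul] at h
  rcases mul_eq_zero.1 h with h | h
  · exact absurd h (natCast_ne_zero' hpe)
  · exact h

include hpe in
theorem range_pMul_MB : LinearMap.range (pMul R p (MB C B)) = Pw C B e := by
  ext x
  rw [mem_Pw, ← hpe, Ideal.mem_span_singleton']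
  constructor
  · rintro ⟨y, rfl⟩
    refine ⟨RepMod.out _ y, ?_⟩
    show _ = RepMod.out _ (p • y)
    rw [RepMod.nsmul_out, nsmul_eq_mul, mul_comm]
  · rintro ⟨a, ha⟩
    refine ⟨RepMod.mk _ a, ?_⟩
    show p • RepMod.mk _ a = x
    have : RepMod.out _ (p • RepMod.mk (rhoAdd C B) a) = RepMod.out _ x := by
      rw [RepMod.nsmul_out, RepMod.out_mk, ← ha, nsmul_eq_mul, mul_comm]
    exact this

include hpe in
theorem finite_quot_pMul_MB [Finite (ResidueField B)] :
    Finite (MB C B ⧸ LinearMap.range (pMul R p (MB C B))) := by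
  rw [range_pMul_MB hpe]
  exact finite_quot_Pw C B e

variable [IsAdicComplete (maximalIdeal B) B] [Finite (ResidueField B)] (hp : p.Prime)

include hpe in
theorem finite_quot_pMul_Pw (n : ℕ) :
    Finite (↥(Pw C B n) ⧸ LinearMap.range (pMul R p ↥(Pw C B n))) := by
  haveI := finite_quot_Pw C B (n + e)
  exact Herbrand.finite_quot_of_ker_eq (inclQ C B n e) (ker_inclQ hpe n)

include hp hpe in
theorem Un_torsionFree {n : ℕ} (hn : 1 ≤ n) (hne' : e + 1 ≤ (p - 1) * n) :
    ∀ u : ↥(Un C B n), p • u = 0 → u = 0 := by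
  intro u hu
  have hu1 : (Additive.toMul (RepMod.out _ (u : MU C B)) : Bˣ) ∈ unitFil B n := u.2
  have hu2 : (Additive.toMul (RepMod.out _ (u : MU C B)) : Bˣ) ^ p = 1 := by
    have : RepMod.out _ ((p • u : ↥(Un C B n)) : MU C B) = 0 := by rw [hu]; rfl
    rw [AddSubmonoidClass.coe_nsmul, RepMod.nsmul_out] at this
    exact this
  have := eq_one_of_pow_eq_one hp hpe hn hne' hu1 hu2
  apply Subtype.ext
  exact this

include hp hpe in
theorem finite_quot_pMul_Un {n : ℕ} (hn : 1 ≤ n) (hne : e ≤ n) (hne' : e + 1 ≤ (p - 1) * n) :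
    Finite (↥(Un C B n) ⧸ LinearMap.range (pMul R p ↥(Un C B n))) := by
  haveI := finite_quot_Pw C B (n + e)
  exact Herbrand.finite_quot_of_ker_eq (subOne C B hne) (ker_subOne hp hpe hn hne hne')

include hp hpe in
theorem Un_le_range_pMul {n : ℕ} (hn : 1 ≤ n) (hne' : e + 1 ≤ (p - 1) * n) :
    Un C B (n + e) ≤ LinearMap.range (pMul R p (MU C B)) := by
  intro u hu
  have hmap := map_nsmul_unitFilAdd hp hpe hn hne'
  have hu' : RepMod.out _ u ∈ unitFilAdd B (n + e) := hu
  rw [← hmap] at hu'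
  obtain ⟨a, _, hau⟩ := hu'
  exact ⟨RepMod.mk _ a, hau⟩

include hp hpe in
theorem finite_quot_pMul_MU : Finite (MU C B ⧸ LinearMap.range (pMul R p (MU C B))) := by
  have hn : 1 ≤ e + 1 := by omega
  have hne' : e + 1 ≤ (p - 1) * (e + 1) := by
    have := hp.two_le
    calc e + 1 = 1 * (e + 1) := (one_mul _).symm
      _ ≤ (p - 1) * (e + 1) := Nat.mul_le_mul_right _ (by omega)
  haveI := finite_quot_Un C B (e + 1 + e)
  exact Herbrand.finite_quot_of_le (Un_le_range_pMul hpe hp hn hne')

end Finiteness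

section Count

variable {C : Type} [Group C]
  {B : Type} [CommRing B] [IsDomain B] [IsDiscreteValuationRing B]
  {K : Type} [Field K] [Algebra B K] [IsFractionRing B K]
  [MulSemiringAction C B] [MulSemiringAction C K]

local notation "R" => MonoidAlgebra ℤ C

variable (C K) in
/-- `Kˣ[p] = μ_p(K)` is finite. -/
theorem finite_ker_pMul_MK {p : ℕ} (hp0 : p ≠ 0) :
    Finite (LinearMap.ker (pMul R p (MK C K))) := by
  haveI : NeZero p := ⟨hp0⟩
  let φ : LinearMap.ker (pMul R p (MK C K)) → rootsOfUnity p K := fun x =>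
    ⟨Additive.toMul (RepMod.out _ (x : MK C K)), by
      rw [mem_rootsOfUnity]
      have hx : p • (x : MK C K) = 0 := x.2
      have : RepMod.out _ (p • (x : MK C K)) = 0 := by rw [hx]; rfl
      rw [RepMod.nsmul_out] at this
      exact this⟩
  have hφ : Function.Injective φ := fun x y h => by
    apply Subtype.ext
    have := congrArg Subtype.val h
    exact this
  exact Finite.of_injective φ hφ

variable (hBK : ∀ (c : C) (b : B), algebraMap B K (c • b) = c • algebraMap B K b)
  [IsAdicComplete (maximalIdeal B) B] [Finite (ResidueField B)]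
  {p : ℕ} (hp : p.Prime) {e : ℕ} (hpe : Ideal.span {(p : B)} = maximalIdeal B ^ e)

include hBK hp hpe in
/-- `Kˣ / p` is finite. -/
theorem finite_quot_pMul_MK : Finite (MK C K ⧸ LinearMap.range (pMul R p (MK C K))) := by
  haveI : NeZero p := ⟨hp.ne_zero⟩
  haveI := finite_quot_pMul_MU (C := C) hpe hp
  exact Herbrand.finite_quot_of_exact (iotaUK C B K hBK) (valLin C B K hBK)
    (iotaUK_injective C B K hBK) (valLin_surjective C B K hBK) (exact_iotaUK_valLin C B K hBK)
    (Triv.torsionFree_int C p hp.ne_zero)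

include hBK hp hpe in
/-- **The unit count, reduced to the additive group**: for every additive invariant `f` of
`ℤ[C]`-modules, `f(Kˣ/p) = f(𝔽_p) + f(μ_p(K)) + f(B/pB)`. -/
theorem f_units_eq_f_MB (F : AddInv R p) :
    F.f (MK C K ⧸ LinearMap.range (pMul R p (MK C K))) =
      F.f (Triv C (ZMod p)) + F.f (LinearMap.ker (pMul R p (MK C K))) +
        F.f (MB C B ⧸ LinearMap.range (pMul R p (MB C B))) := by
  haveI : NeZero p := ⟨hp.ne_zero⟩
  have hn : 1 ≤ e + 1 := by omega
  have hne : e ≤ e + 1 := by omega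
  have hne' : e + 1 ≤ (p - 1) * (e + 1) := by
    have := hp.two_le
    calc e + 1 = 1 * (e + 1) := (one_mul _).symm
      _ ≤ (p - 1) * (e + 1) := Nat.mul_le_mul_right _ (by omega)
  have htf := Triv.torsionFree_int C p hp.ne_zero
  haveI := finite_quot_pMul_MU (C := C) hpe hp
  haveI := finite_ker_pMul_MK C K hp.ne_zero
  haveI : Finite (LinearMap.ker (pMul R p (MU C B))) :=
    Herbrand.finite_ker_pMul_of_injective (iotaUK C B K hBK) (iotaUK_injective C B K hBK)
  haveI := finite_quot_pMul_MK (C := C) (K := K) hBK hp hpe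
  -- the valuation sequence
  have h1 := Herbrand.f_quot_of_exact F (iotaUK C B K hBK) (valLin C B K hBK)
    (iotaUK_injective C B K hBK) (valLin_surjective C B K hBK) (exact_iotaUK_valLin C B K hBK) htf
  have h2 : F.f (Triv C ℤ ⧸ LinearMap.range (pMul R p (Triv C ℤ))) = F.f (Triv C (ZMod p)) :=
    F.iso (trivQuotEquiv C p)
  have h3 := Herbrand.f_ker_of_exact F (iotaUK C B K hBK) (valLin C B K hBK)
    (iotaUK_injective C B K hBK) (exact_iotaUK_valLin C B K hBK) htf
  -- Herbrand for `U^(n) ⊆ Bˣ`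
  haveI := finite_quot_Un C B (e + 1)
  haveI := finite_quot_pMul_Un (C := C) hpe hp hn hne hne'
  have h4 := Herbrand.herbrand_submodule F (Un C B (e + 1))
  have h5 := Herbrand.f_ker_pMul_eq_zero F (Un_torsionFree (C := C) hpe hp hn hne')
  -- `U^(n)/p ≅ 𝔪^n/p`
  have h6 := Herbrand.f_quot_eq_of_range_eq F (subOne C B hne) (inclQ C B (e + 1) e)
    (ker_subOne hp hpe hn hne hne') (ker_inclQ hpe (e + 1))
    ((range_subOne C B hn hne).trans (range_inclQ C B (e + 1) e).symm)
  -- the lattice `𝔪^n ⊆ B`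
  haveI := finite_quot_Pw C B (e + 1)
  haveI := finite_quot_pMul_Pw (C := C) hpe (e + 1)
  haveI := finite_quot_pMul_MB (C := C) hpe
  have h7 := Herbrand.lattice_submodule F (Pw C B (e + 1)) (MB_torsionFree hpe)
  linarith

end Count

end Fermat.Agent.S56.Loc.EC.Units
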