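/-
S56 / E-ECp / (L6), ring-level normal-basis lattice (helper26).

`B` a domain with fraction field `K`, `C` a finite group acting faithfully on `K` and preserving `B`,
`π ∈ B` a nonzero `C`-fixed element such that every element of `K` is moved into `B` by a power of
`π`.  Then there is `x₀ ∈ B` such that the map `A₀[C] → B`, `(a_t) ↦ ∑ a_t · t(x₀)` (`A₀ = B^C`) is
injective and its image contains `π^k B` (`exists_normal_lattice`).  Proof: the normal basis theorem
for `K / K^C` (Mathlib), and the dual basis for the trace form: the coordinates of `y` are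
`Tr(y d_t) = ∑_s s(y d_t)`.
-/
import Mathlib

set_option autoImplicit false
set_option linter.unusedSectionVars false
set_option linter.style.haveILetI false

namespace Fermat.Agent.S56.Loc.EC.Units.NormalLattice

open Module

section Field

variable (K : Type*) [Field K] (C : Type*) [Group C] [Fintype C] [MulSemiringAction C K]
  [FaithfulSMul C K]

/-- A normal basis of `K` over the fixed field `K^C`, indexed by `C`. -/
noncomputable def nb : Basis C (FixedPoints.subfield C K) K :=
  (IsGalois.normalBasis (FixedPoints.subfield C K) K).reindex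
    (FixedPoints.toAlgAutMulEquiv C K).symm.toEquiv

/-- the generator of the normal basis -/
noncomputable def gen : K := IsGalois.normalBasis (FixedPoints.subfield C K) K 1

variable {K C}

theorem nb_apply (t : C) : nb K C t = t • gen K C := by
  rw [nb, Basis.reindex_apply, IsGalois.normalBasis_apply]
  rfl

/-- The trace to the fixed field is the sum over the group. -/
theorem algebraMap_trace (x : K) :
    algebraMap (FixedPoints.subfield C K) K (Algebra.trace (FixedPoints.subfield C K) K x) =
      ∑ t : C, t • x := by
  rw [trace_eq_sum_automorphisms]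
  exact (Fintype.sum_equiv (FixedPoints.toAlgAutMulEquiv C K).toEquiv _ _ (fun t => rfl)).symm

variable (K C)

open scoped Classical in
/-- The dual basis of the normal basis for the trace form. -/
noncomputable def dnb : Basis C (FixedPoints.subfield C K) K :=
  (Algebra.traceForm (FixedPoints.subfield C K) K).dualBasis
    (traceForm_nondegenerate (FixedPoints.subfield C K) K) (nb K C)

variable {K C}

/-- The coordinates in the normal basis are traces against the dual basis. -/
theorem repr_nb (y : K) (t : C) :
    (((nb K C).repr y t : FixedPoints.subfield C K) : K) = ∑ s : C, s • (y * dnb K C t) := by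
  classical
  have h1 : nb K C = (Algebra.traceForm (FixedPoints.subfield C K) K).dualBasis
      (traceForm_nondegenerate (FixedPoints.subfield C K) K) (dnb K C) := by
    rw [dnb, LinearMap.BilinForm.dualBasis_dualBasis _ (Algebra.traceForm_isSymm _)]
  have h2 : (nb K C).repr y t = Algebra.trace (FixedPoints.subfield C K) K (y * dnb K C t) := by
    conv_lhs => rw [h1]
    rw [LinearMap.BilinForm.dualBasis_repr_apply, Algebra.traceForm_apply]
  rw [h2, ← algebraMap_trace]
  rfl

end Field

section Ring

variable {B K : Type*} [CommRing B] [IsDomain B] [Field K] [Algebra B K] [IsFractionRing B K]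
  {C : Type*} [Group C] [Fintype C] [MulSemiringAction C B] [MulSemiringAction C K]
  [FaithfulSMul C K]

/-- finitely many elements of `K` are moved into `B` by a common power of `π` -/
theorem exists_pow_mul_mem (π : B)
    (hπ : ∀ x : K, ∃ k : ℕ, ∃ y : B, algebraMap B K y = algebraMap B K π ^ k * x)
    {ι : Type*} [Finite ι] (f : ι → K) :
    ∃ k : ℕ, ∀ i, ∃ y : B, algebraMap B K y = algebraMap B K π ^ k * f i := by
  classical
  cases nonempty_fintype ι
  choose k y hy using fun i => hπ (f i)
  refine ⟨Finset.univ.sup k, fun i => ?_⟩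
  have hle : k i ≤ Finset.univ.sup k := Finset.le_sup (Finset.mem_univ i)
  refine ⟨π ^ (Finset.univ.sup k - k i) * y i, ?_⟩
  rw [map_mul, map_pow, hy i, ← mul_assoc, ← pow_add, Nat.sub_add_cancel hle]

/-- **The normal-basis lattice.** -/
theorem exists_normal_lattice
    (hBK : ∀ (c : C) (b : B), algebraMap B K (c • b) = c • algebraMap B K b)
    (π : B) (hπ0 : π ≠ 0) (hπC : ∀ c : C, c • π = π)
    (hπ : ∀ x : K, ∃ k : ℕ, ∃ y : B, algebraMap B K y = algebraMap B K π ^ k * x) :
    ∃ x₀ : B, (∀ a : C → B, (∀ s t : C, s • a t = a t) → ∑ t : C, a t * t • x₀ = 0 → a = 0) ∧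
      ∃ k : ℕ, ∀ y : B, ∃ a : C → B, (∀ s t : C, s • a t = a t) ∧
        π ^ k * y = ∑ t : C, a t * t • x₀ := by
  classical
  have hinj : Function.Injective (algebraMap B K) := IsFractionRing.injective B K
  have hπK : algebraMap B K π ≠ 0 := fun h => hπ0 (hinj (by rw [h, map_zero]))
  have hπKC : ∀ c : C, c • algebraMap B K π = algebraMap B K π := fun c => by
    rw [← hBK, hπC]
  -- scale the generator into `B`
  obtain ⟨k₁, x₀, hx₀⟩ := hπ (gen K C)
  -- scale the dual basis into `B`
  obtain ⟨k₂, hk₂⟩ := exists_pow_mul_mem π hπ (fun t : C => dnb K C t)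
  choose d hd using hk₂
  have hx₀t : ∀ t : C, algebraMap B K (t • x₀) = algebraMap B K π ^ k₁ * nb K C t := fun t => by
    rw [hBK, hx₀, smul_mul', smul_pow', hπKC, nb_apply]
  refine ⟨x₀, ?_, k₁ + k₂, ?_⟩
  · -- injectivity
    intro a ha hsum
    -- the coefficients, in the fixed field
    let e : C → FixedPoints.subfield C K := fun t =>
      ⟨algebraMap B K (a t) * algebraMap B K π ^ k₁, fun s => by
        rw [smul_mul', smul_pow', hπKC, ← hBK, ha]⟩
    have h0 : ∑ t, e t • nb K C t = 0 := by
      have h1 := congrArg (algebraMap B K) hsum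
      rw [map_sum, map_zero] at h1
      rw [← h1]
      refine Finset.sum_congr rfl (fun t _ => ?_)
      rw [map_mul, hx₀t]
      show (algebraMap B K (a t) * algebraMap B K π ^ k₁) * nb K C t = _
      ring
    have h2 := Fintype.linearIndependent_iff.1 (nb K C).linearIndependent e h0
    funext t
    have h3 : algebraMap B K (a t) * algebraMap B K π ^ k₁ = 0 := congrArg Subtype.val (h2 t)
    rcases mul_eq_zero.1 h3 with h4 | h4
    · exact hinj (by rw [h4, Pi.zero_apply, map_zero])
    · exact absurd (eq_zero_of_pow_eq_zero h4) hπK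
  · -- the image contains `π ^ k B`
    intro y
    -- the coordinates of `π ^ k₂ y`
    have hcoord : ∀ t : C, ∃ a : B, algebraMap B K a =
        algebraMap B K π ^ k₂ * (((nb K C).repr (algebraMap B K y) t :
          FixedPoints.subfield C K) : K) := by
      intro t
      refine ⟨∑ s : C, s • (y * d t), ?_⟩
      rw [map_sum, repr_nb, Finset.mul_sum]
      refine Finset.sum_congr rfl (fun s _ => ?_)
      rw [hBK, map_mul, hd t, smul_mul', smul_mul', smul_mul', smul_pow', hπKC]
      ring
    choose a ha using hcoord
    refine ⟨a, fun s t => ?_, ?_⟩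
    · apply hinj
      rw [hBK, ha, smul_mul', smul_pow', hπKC]
      congr 1
      exact ((nb K C).repr (algebraMap B K y) t).2 s
    · apply hinj
      rw [map_mul, map_pow, map_sum]
      have h1 : algebraMap B K y = ∑ t, (nb K C).repr (algebraMap B K y) t • nb K C t :=
        ((nb K C).sum_repr _).symm
      conv_lhs => rw [h1, Finset.mul_sum]
      refine Finset.sum_congr rfl (fun t _ => ?_)
      rw [map_mul, ha, hx₀t, pow_add]
      show _ * ((((nb K C).repr (algebraMap B K y) t : FixedPoints.subfield C K) : K) *
        nb K C t) = _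
      ring

end Ring

section DVR

variable {B K : Type*} [CommRing B] [IsDomain B] [IsDiscreteValuationRing B] [Field K]
  [Algebra B K] [IsFractionRing B K]

/-- In a discrete valuation ring, every element of the fraction field is moved into the ring by a
power of any element of the maximal ideal. -/
theorem exists_pow_mul_eq_of_mem_maximalIdeal {π : B} (hπ : π ∈ IsLocalRing.maximalIdeal B)
    (x : K) : ∃ k : ℕ, ∃ y : B, algebraMap B K y = algebraMap B K π ^ k * x := by
  obtain ⟨a, s, hs, rfl⟩ := IsFractionRing.div_surjective (A := B) x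
  have hs0 : s ≠ 0 := nonZeroDivisors.ne_zero hs
  obtain ⟨ϖ, hϖ⟩ := IsDiscreteValuationRing.exists_irreducible B
  obtain ⟨j, u, hu⟩ := IsDiscreteValuationRing.eq_unit_mul_pow_irreducible hs0 hϖ
  have hdvd : ϖ ∣ π := by
    rw [hϖ.maximalIdeal_eq, Ideal.mem_span_singleton] at hπ
    exact hπ
  have hsd : s ∣ π ^ j := by
    obtain ⟨c, hc⟩ := pow_dvd_pow_of_dvd hdvd j
    refine ⟨(↑u⁻¹ : B) * c, ?_⟩
    rw [hc, hu]
    have h1 : (u : B) * (↑u⁻¹ : B) = 1 := u.mul_inv
    calc ϖ ^ j * c = ((u : B) * (↑u⁻¹ : B)) * (ϖ ^ j * c) := by rw [h1, one_mul]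
      _ = (u : B) * ϖ ^ j * ((↑u⁻¹ : B) * c) := by ring
  obtain ⟨s', hs'⟩ := hsd
  refine ⟨j, s' * a, ?_⟩
  have hsK : algebraMap B K s ≠ 0 := fun h =>
    hs0 ((IsFractionRing.injective B K) (by rw [h, map_zero]))
  rw [← map_pow, hs', map_mul, map_mul]
  field_simp

end DVR

end Fermat.Agent.S56.Loc.EC.Units.NormalLattice
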