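/-
S56 / E-ECp / (L6) part 4 (helper5): the normal basis step, module level.

On top of helper26's ring-level `NormalLattice.exists_normal_lattice`:

* `rhoInd C A`, `Ind C A` : the induced `ℤ[C]`-module `A[C]` (functions `C → A`, left translation);
  `Ind.map`, `Ind.congr` (functoriality), `Ind.quotEquiv : A[C]/p ≅ (A/p)[C]`,
  `Ind.piEquiv : (A^ι)[C] ≅ (A[C])^ι`.
* `rhoPerm C p`, `Perm C p` : the regular representation `𝔽_p[C]` as a `ℤ[C]`-module, carrier
  `C →₀ ZMod p`, `of c • f = Finsupp.mapDomain (c * ·) f` (`Perm.of_smul`); `Perm.equivInd`.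
* `f_Ind_eq` : `f(A'[C]) = d · f(𝔽_p[C])` for an abelian group `A'` of order `p^d` killed by `p`.
* `psi x₀ : B^C[C] → B`, `(a_t) ↦ ∑ a_t · t(x₀)`, `ℤ[C]`-linear.
* **`f_MB_eq` : `f(B/pB) = d · f(𝔽_p[C])`**, `p^d = |B^C/p|`, for a DVR `B` with finite residue
  field, `(p) = 𝔪^e`, `e ≠ 0`, and a finite group `C` acting faithfully on `K = Frac B`.
-/
import Mathlib
import Fermat.Agent.S56.Loc.EC.Units.Count
import Fermat.Agent.S56.Loc.EC.Units.NormalLattice
import Fermat.Agent.S56.GEC.Induction.AddInvMore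

set_option autoImplicit false
set_option linter.unusedSectionVars false
set_option linter.style.haveILetI false

namespace Fermat.Agent.S56.Loc.EC.Units

open Fermat.Agent.S56.GEC.Induction Fermat.Agent.S55.Local IsLocalRing

section Ind

variable (C : Type) [Group C] (A A' : Type) [AddCommGroup A] [AddCommGroup A']

local notation "R" => MonoidAlgebra ℤ C

/-- Left translation on functions `C → A`. -/
def rhoInd : C →* AddMonoid.End (C → A) where
  toFun c :=
    { toFun := fun f t => f (c⁻¹ * t)
      map_zero' := rfl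
      map_add' := fun _ _ => rfl }
  map_one' := by
    ext f t
    show f ((1 : C)⁻¹ * t) = f t
    rw [inv_one, one_mul]
  map_mul' c c' := by
    ext f t
    show f ((c * c')⁻¹ * t) = f (c'⁻¹ * (c⁻¹ * t))
    rw [mul_inv_rev, mul_assoc]

@[simp] theorem rhoInd_apply (c : C) (f : C → A) (t : C) : rhoInd C A c f t = f (c⁻¹ * t) := rfl

/-- The induced module `A[C]` (functions `C → A` with left translation). -/
abbrev Ind : Type := RepMod (rhoInd C A)

variable {A A'}

/-- Functoriality of `Ind` in the coefficients. -/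
noncomputable def Ind.map (φ : A →+ A') : Ind C A →ₗ[R] Ind C A' :=
  RepMod.lin (φ.compLeft C) (fun _ _ => rfl)

theorem Ind.map_apply (φ : A →+ A') (f : Ind C A) (t : C) :
    RepMod.out _ (Ind.map C φ f) t = φ (RepMod.out _ f t) := rfl

/-- Functoriality of `Ind` in the coefficients, for equivalences. -/
noncomputable def Ind.congr (φ : A ≃+ A') : Ind C A ≃ₗ[R] Ind C A' :=
  RepMod.linEquiv (AddEquiv.piCongrRight fun _ => φ) (fun _ _ => rfl)

instance Ind.finite [Finite C] [Finite A] : Finite (Ind C A) := inferInstanceAs (Finite (C → A))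

theorem Ind.pTors (p : ℕ) (hA : ∀ a : A, p • a = 0) : PTors p (Ind C A) :=
  ⟨fun f => by
    have : RepMod.out _ (p • f) = 0 := by
      rw [RepMod.nsmul_out]
      funext t
      rw [Pi.smul_apply, hA]
      rfl
    exact this⟩

/-- `A[C] / p ≅ (A/p)[C]`. -/
noncomputable def Ind.quotEquiv (p : ℕ) (π : A →+ A') (hπ : Function.Surjective π)
    (hker : ∀ a, π a = 0 ↔ ∃ a', p • a' = a) :
    (Ind C A ⧸ LinearMap.range (pMul R p (Ind C A))) ≃ₗ[R] Ind C A' :=
  (Submodule.quotEquivOfEq _ _ (by
    ext f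
    rw [LinearMap.mem_ker]
    constructor
    · rintro ⟨g, rfl⟩
      have : RepMod.out _ (Ind.map C π (p • g)) = 0 := by
        funext t
        rw [Ind.map_apply, RepMod.nsmul_out, Pi.smul_apply]
        exact (hker _).2 ⟨_, rfl⟩
      exact this
    · intro hf
      have h1 : ∀ t, ∃ a', p • a' = RepMod.out _ f t := fun t => by
        apply (hker _).1
        have := congrFun (congrArg (RepMod.out _) hf) t
        rwa [Ind.map_apply] at this
      choose g hg using h1
      refine ⟨RepMod.mk _ g, ?_⟩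
      show p • RepMod.mk _ g = f
      have : RepMod.out _ (p • RepMod.mk (rhoInd C A) g) = RepMod.out _ f := by
        rw [RepMod.nsmul_out, RepMod.out_mk]
        funext t
        rw [Pi.smul_apply, hg]
      exact this)).trans
    ((Ind.map C π).quotKerEquivOfSurjective (fun f => by
      choose g hg using fun t => hπ (RepMod.out _ f t)
      refine ⟨RepMod.mk _ g, ?_⟩
      have : RepMod.out _ (Ind.map C π (RepMod.mk _ g)) = RepMod.out _ f := by
        funext t
        rw [Ind.map_apply, RepMod.out_mk, hg]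
      exact this))

/-- `(A^ι)[C] ≅ (A[C])^ι`. -/
noncomputable def Ind.piEquiv (ι : Type) : Ind C (ι → A) ≃ₗ[R] (ι → Ind C A) :=
  LinearEquiv.ofBijective
    (linOfCommutes
      { toFun := fun f i => RepMod.mk (rhoInd C A) (fun t => RepMod.out (rhoInd C (ι → A)) f t i)
        map_zero' := rfl
        map_add' := fun _ _ => rfl }
      (fun c f => by
        funext i
        rw [Pi.smul_apply, RepMod.of_smul, RepMod.of_smul]
        rfl))
    ⟨fun f g h => by
      have : RepMod.out (rhoInd C (ι → A)) f = RepMod.out (rhoInd C (ι → A)) g := by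
        funext t i
        have := congrArg (RepMod.out (rhoInd C A)) (congrFun h i)
        exact congrFun this t
      exact this,
     fun g => ⟨RepMod.mk (rhoInd C (ι → A)) (fun t i => RepMod.out (rhoInd C A) (g i) t), rfl⟩⟩

end Ind

section Perm

variable (C : Type) [Group C] (p : ℕ)

local notation "R" => MonoidAlgebra ℤ C

/-- Left translation on `C →₀ ZMod p`. -/
noncomputable def rhoPerm : C →* AddMonoid.End (C →₀ ZMod p) where
  toFun c := Finsupp.mapDomain.addMonoidHom (c * ·)
  map_one' := by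
    ext f : 1
    show Finsupp.mapDomain (fun t => 1 * t) f = f
    simp only [one_mul]
    exact Finsupp.mapDomain_id
  map_mul' c c' := by
    ext f : 1
    show Finsupp.mapDomain (fun t => c * c' * t) f =
      Finsupp.mapDomain (fun t => c * t) (Finsupp.mapDomain (fun t => c' * t) f)
    rw [← Finsupp.mapDomain_comp]
    congr 1
    funext t
    exact mul_assoc c c' t

@[simp] theorem rhoPerm_apply (c : C) (f : C →₀ ZMod p) :
    rhoPerm C p c f = Finsupp.mapDomain (c * ·) f := rfl

/-- The regular representation `𝔽_p[C]` as a `ℤ[C]`-module (carrier `C →₀ ZMod p`). -/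
abbrev Perm : Type := RepMod (rhoPerm C p)

noncomputable instance : Module (ZMod p) (Perm C p) :=
  inferInstanceAs (Module (ZMod p) (C →₀ ZMod p))

theorem Perm.of_smul (c : C) (f : Perm C p) :
    MonoidAlgebra.of ℤ C c • f = RepMod.mk _ (Finsupp.mapDomain (c * ·) (RepMod.out _ f)) :=
  RepMod.of_smul _ c f

/-- Functions with left translation are the regular representation, for a finite group. -/
noncomputable def Perm.equivInd [Finite C] : Perm C p ≃ₗ[R] Ind C (ZMod p) :=
  RepMod.linEquiv (Finsupp.linearEquivFunOnFinite (ZMod p) (ZMod p) C).toAddEquiv (fun c f => by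
    funext t
    show (Finsupp.mapDomain (c * ·) f) t = f (c⁻¹ * t)
    have h : t = (c * ·) (c⁻¹ * t) := by simp
    conv_lhs => rw [h]
    exact Finsupp.mapDomain_apply (mul_right_injective c) f (c⁻¹ * t))

theorem nonempty_addEquiv_aux {p : ℕ} [Fact p.Prime] {A' : Type} [AddCommGroup A']
    [Module (ZMod p) A'] [Finite A'] {d : ℕ} (hd : Nat.card A' = p ^ d) :
    Nonempty (A' ≃+ (Fin d → ZMod p)) := by
  haveI : Module.Finite (ZMod p) A' := Module.Finite.of_finite
  have hfr : Module.finrank (ZMod p) A' = d := by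
    have h : Nat.card A' = Nat.card (ZMod p) ^ Module.finrank (ZMod p) A' :=
      Module.natCard_eq_pow_finrank
    rw [hd, Nat.card_zmod] at h
    exact (Nat.pow_right_injective (Fact.out : p.Prime).two_le h).symm
  exact ⟨(Module.finBasisOfFinrankEq (ZMod p) A' hfr).equivFun.toAddEquiv⟩

/-- An abelian group of order `p^d` killed by `p` is `𝔽_p^d`. -/
theorem nonempty_addEquiv_of_card {p : ℕ} (hp : p.Prime) {A' : Type} [AddCommGroup A']
    (hA' : ∀ a : A', p • a = 0) {d : ℕ} (hd : Nat.card A' = p ^ d) :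
    Nonempty (A' ≃+ (Fin d → ZMod p)) := by
  haveI : Fact p.Prime := ⟨hp⟩
  letI : Module (ZMod p) A' := AddCommGroup.zmodModule hA'
  haveI : Finite A' := Nat.finite_of_card_ne_zero (by rw [hd]; exact pow_ne_zero _ hp.ne_zero)
  exact nonempty_addEquiv_aux hd

/-- `f((𝔽_p^d)[C]) = d · f(𝔽_p[C])`, for any abelian group `A'` of order `p^d` killed by `p`. -/
theorem f_Ind_eq [Finite C] {p : ℕ} (hp : p.Prime) (F : AddInv R p) {A' : Type} [AddCommGroup A']
    (hA' : ∀ a : A', p • a = 0) {d : ℕ} (hd : Nat.card A' = p ^ d) :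
    F.f (Ind C A') = d * F.f (Perm C p) := by
  haveI : NeZero p := ⟨hp.ne_zero⟩
  haveI : Finite A' := Nat.finite_of_card_ne_zero (by rw [hd]; exact pow_ne_zero _ hp.ne_zero)
  obtain ⟨e⟩ := nonempty_addEquiv_of_card hp hA' hd
  haveI : PTors p (Ind C A') := Ind.pTors C p hA'
  have hz : ∀ a : ZMod p, p • a = 0 := fun a => by
    rw [nsmul_eq_mul, ZMod.natCast_self, zero_mul]
  have hz' : ∀ a : Fin d → ZMod p, p • a = 0 := fun a => by
    funext i
    rw [Pi.smul_apply, hz]
    rfl
  haveI : PTors p (Ind C (ZMod p)) := Ind.pTors C p hz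
  haveI : PTors p (Ind C (Fin d → ZMod p)) := Ind.pTors C p hz'
  have h1 : F.f (Ind C A') = F.f (Ind C (Fin d → ZMod p)) := F.iso (Ind.congr C e)
  have h2 : F.f (Ind C (Fin d → ZMod p)) = F.f (Fin d → Ind C (ZMod p)) :=
    F.iso (Ind.piEquiv C (Fin d))
  have h3 : F.f (Fin d → Ind C (ZMod p)) = ∑ _i : Fin d, F.f (Ind C (ZMod p)) :=
    F.pi (fun _ : Fin d => Ind C (ZMod p))
  have h4 : F.f (Ind C (ZMod p)) = F.f (Perm C p) := F.iso (Perm.equivInd C p).symm
  rw [h1, h2, h3, h4, Finset.sum_const, Finset.card_univ, Fintype.card_fin, nsmul_eq_mul]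

end Perm

section Psi

variable {C : Type} [Group C] [Finite C] {B : Type} [CommRing B] [MulSemiringAction C B]

local notation "R" => MonoidAlgebra ℤ C

/-- The additive map `(a_t) ↦ ∑ a_t * t • x₀` on `B^C`-valued families. -/
noncomputable def psiAdd (x₀ : B) : (C → FixedPoints.subring B C) →+ B :=
  letI := Fintype.ofFinite C
  { toFun := fun f => ∑ t : C, (f t : B) * t • x₀
    map_zero' := by simp
    map_add' := fun f g => by simp [add_mul, Finset.sum_add_distrib] }

theorem psiAdd_apply (x₀ : B) (f : C → FixedPoints.subring B C) :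
    psiAdd x₀ f = @Finset.sum C B _ (@Finset.univ C (Fintype.ofFinite C))
      (fun t => (f t : B) * t • x₀) := rfl

theorem psiAdd_rhoInd (x₀ : B) (c : C) (f : C → FixedPoints.subring B C) :
    psiAdd x₀ (rhoInd C _ c f) = rhoAdd C B c (psiAdd x₀ f) := by
  letI := Fintype.ofFinite C
  show ∑ t : C, ((f (c⁻¹ * t) : FixedPoints.subring B C) : B) * t • x₀ =
    c • ∑ t : C, (f t : B) * t • x₀
  rw [Finset.smul_sum]
  refine Fintype.sum_equiv (Equiv.mulLeft c⁻¹) _ _ (fun t => ?_)
  show ((f (c⁻¹ * t) : FixedPoints.subring B C) : B) * t • x₀ =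
    c • (((f (c⁻¹ * t) : FixedPoints.subring B C) : B) * (c⁻¹ * t) • x₀)
  have hfix : c • ((f (c⁻¹ * t) : FixedPoints.subring B C) : B) = f (c⁻¹ * t) :=
    (f (c⁻¹ * t)).2 c
  rw [smul_mul', hfix, ← mul_smul, mul_inv_cancel_left]

/-- The `ℤ[C]`-linear map `B^C[C] → B`, `(a_t) ↦ ∑ a_t * t • x₀`. -/
noncomputable def psi (x₀ : B) : Ind C (FixedPoints.subring B C) →ₗ[R] MB C B :=
  RepMod.lin (psiAdd x₀) (psiAdd_rhoInd x₀)

end Psi

section Lattice

variable {C : Type} [Group C] [Finite C]
  {B : Type} [CommRing B] [IsDomain B] [IsDiscreteValuationRing B]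
  {K : Type} [Field K] [Algebra B K] [IsFractionRing B K]
  [MulSemiringAction C B] [MulSemiringAction C K] [FaithfulSMul C K]
  (hBK : ∀ (c : C) (b : B), algebraMap B K (c • b) = c • algebraMap B K b)
  [Finite (ResidueField B)]
  {p : ℕ} (hp : p.Prime) {e : ℕ} (hpe : Ideal.span {(p : B)} = maximalIdeal B ^ e)

local notation "R" => MonoidAlgebra ℤ C

include hBK hp hpe in
/-- **The normal basis step**: `f(B/pB) = d · f(𝔽_p[C])` where `p^d = |B^C / p|`. -/
theorem f_MB_eq (he : e ≠ 0) (F : AddInv R p) {d : ℕ}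
    (hd : Nat.card (FixedPoints.subring B C ⧸
      Ideal.span {(p : FixedPoints.subring B C)}) = p ^ d) :
    F.f (MB C B ⧸ LinearMap.range (pMul R p (MB C B))) = d * F.f (Perm C p) := by
  classical
  letI : Fintype C := Fintype.ofFinite C
  have hpm : (p : B) ∈ maximalIdeal B := Ideal.pow_le_self he (natCast_mem_pow hpe)
  obtain ⟨x₀, hinj, k, hk⟩ := NormalLattice.exists_normal_lattice (K := K) hBK (p : B)
    (natCast_ne_zero' hpe) (fun c => map_natCast (MulSemiringAction.toRingHom C B c) p)
    (fun x => NormalLattice.exists_pow_mul_eq_of_mem_maximalIdeal hpm x)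
  -- injectivity of `psi`
  have hψinj : Function.Injective (psi (C := C) x₀) := by
    rw [injective_iff_map_eq_zero]
    intro f hf
    have h0 : ∑ t : C, ((RepMod.out _ f t : FixedPoints.subring B C) : B) * t • x₀ = 0 := hf
    have h1 := hinj (fun t => ((RepMod.out _ f t : FixedPoints.subring B C) : B))
      (fun s t => (RepMod.out _ f t).2 s) h0
    have h2 : RepMod.out _ f = 0 := by
      funext t
      apply Subtype.ext
      exact congrFun h1 t
    exact h2
  -- finite cokernel
  have hle : Pw C B (e * k) ≤ LinearMap.range (psi (C := C) x₀) := by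
    intro y hy
    have h1 : RepMod.out _ y ∈ Ideal.span {(p : B) ^ k} := by
      rw [← Ideal.span_singleton_pow, hpe, ← pow_mul]
      exact hy
    obtain ⟨z, hz⟩ := Ideal.mem_span_singleton'.1 h1
    obtain ⟨a, ha, hsum⟩ := hk z
    refine ⟨RepMod.mk _ (fun t => ⟨a t, fun s => ha s t⟩), ?_⟩
    have h2 : RepMod.out _ (psi (C := C) x₀ (RepMod.mk _ (fun t => ⟨a t, fun s => ha s t⟩))) =
        RepMod.out _ y := by
      show ∑ t : C, a t * t • x₀ = RepMod.out _ y
      rw [← hsum, mul_comm, hz]
    exact h2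
  haveI := finite_quot_Pw C B (e * k)
  haveI : Finite (MB C B ⧸ LinearMap.range (psi (C := C) x₀)) := Herbrand.finite_quot_of_le hle
  -- `A₀ / p`
  have hπs : Function.Surjective
      (Ideal.Quotient.mk (Ideal.span {(p : FixedPoints.subring B C)})).toAddMonoidHom :=
    Ideal.Quotient.mk_surjective
  have hker : ∀ a : FixedPoints.subring B C,
      (Ideal.Quotient.mk (Ideal.span {(p : FixedPoints.subring B C)})).toAddMonoidHom a = 0 ↔
        ∃ a', p • a' = a := fun a => by
    show Ideal.Quotient.mk _ a = 0 ↔ _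
    rw [Ideal.Quotient.eq_zero_iff_mem, Ideal.mem_span_singleton']
    constructor
    · rintro ⟨a', h⟩
      exact ⟨a', by rw [nsmul_eq_mul, mul_comm]; exact h⟩
    · rintro ⟨a', h⟩
      exact ⟨a', by rw [← h, nsmul_eq_mul, mul_comm]⟩
  have hkill : ∀ a : FixedPoints.subring B C ⧸ Ideal.span {(p : FixedPoints.subring B C)},
      p • a = 0 := fun a => by
    obtain ⟨b, rfl⟩ := hπs a
    rw [← map_nsmul]
    exact (hker _).2 ⟨b, rfl⟩
  haveI : Finite (FixedPoints.subring B C ⧸ Ideal.span {(p : FixedPoints.subring B C)}) :=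
    Nat.finite_of_card_ne_zero (by rw [hd]; exact pow_ne_zero _ hp.ne_zero)
  haveI : Finite (Ind C (FixedPoints.subring B C) ⧸
      LinearMap.range (pMul R p (Ind C (FixedPoints.subring B C)))) :=
    Finite.of_equiv _ (Ind.quotEquiv C p _ hπs hker).symm.toEquiv
  haveI := finite_quot_pMul_MB (C := C) hpe
  have h1 := F.lattice (psi (C := C) x₀) hψinj (MB_torsionFree hpe)
  have h2 : F.f (Ind C (FixedPoints.subring B C) ⧸
      LinearMap.range (pMul R p (Ind C (FixedPoints.subring B C)))) =
      F.f (Ind C (FixedPoints.subring B C ⧸ Ideal.span {(p : FixedPoints.subring B C)})) :=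
    F.iso (Ind.quotEquiv C p _ hπs hker)
  have h3 := f_Ind_eq C hp F hkill hd
  rw [← h1, h2, h3]

end Lattice

end Fermat.Agent.S56.Loc.EC.Units
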