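/-
S56 / E-ECp / (L6-core) (helper5): the equivariant unit count.

Setting: `C` a finite group acting faithfully on a field `K = Frac B` by field automorphisms
preserving the complete discrete valuation ring `B` (finite residue field, `(p) = 𝔪^e`).
For EVERY additive invariant `F : AddInv ℤ[C] p` (helper1):

  **`f_units_mod_p` : `f(Kˣ/p) = f(𝔽_p) + f(Kˣ[p]) + d · f(𝔽_p[C])`,   `p^d = |B^C / p B^C|`.**

The modules (all `RepMod _`, see `Units/Modules.lean`, `Units/Filtration.lean`,
`Units/NormalBasis.lean`):
* `MK C K` : `Additive Kˣ` with `of c • x = c • x` (`MK.of_smul`);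
* `Triv C (ZMod p)` : `ZMod p` with trivial action (`Triv.of_smul`);
* `Perm C p` : `C →₀ ZMod p` with `of c • f = Finsupp.mapDomain (c * ·) f` (`Perm.of_smul`).
-/
import Mathlib
import Fermat.Agent.S56.Loc.EC.Units.NormalBasis

set_option autoImplicit false
set_option linter.unusedSectionVars false
set_option linter.style.haveILetI false

namespace Fermat.Agent.S56.Loc.EC.Units

open Fermat.Agent.S56.GEC.Induction Fermat.Agent.S55.Local IsLocalRing

section Dictionary

variable {C : Type} [Group C]

theorem Triv.of_smul {A : Type} [AddCommGroup A] (c : C) (a : Triv C A) :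
    MonoidAlgebra.of ℤ C c • a = a := by
  rw [RepMod.of_smul]
  rfl

theorem MK.of_smul {K : Type} [Field K] [MulSemiringAction C K] (c : C) (x : MK C K) :
    MonoidAlgebra.of ℤ C c • x =
      RepMod.mk _ (Additive.ofMul (actK c (Additive.toMul (RepMod.out _ x)))) := by
  rw [RepMod.of_smul]
  rfl

theorem MK.coe_of_smul {K : Type} [Field K] [MulSemiringAction C K] (c : C) (x : MK C K) :
    ((Additive.toMul (RepMod.out _ (MonoidAlgebra.of ℤ C c • x)) : Kˣ) : K) =
      c • ((Additive.toMul (RepMod.out _ x) : Kˣ) : K) := by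
  rw [MK.of_smul]
  rfl

theorem MB.of_smul {B : Type} [CommRing B] [MulSemiringAction C B] (c : C) (x : MB C B) :
    MonoidAlgebra.of ℤ C c • x = RepMod.mk _ (c • RepMod.out _ x) := by
  rw [RepMod.of_smul]
  rfl

end Dictionary

section Main

variable {C : Type} [Group C] [Finite C]
  {B : Type} [CommRing B] [IsDomain B] [IsDiscreteValuationRing B]
  {K : Type} [Field K] [Algebra B K] [IsFractionRing B K]
  [MulSemiringAction C B] [MulSemiringAction C K] [FaithfulSMul C K]
  (hBK : ∀ (c : C) (b : B), algebraMap B K (c • b) = c • algebraMap B K b)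
  [IsAdicComplete (maximalIdeal B) B] [Finite (ResidueField B)]
  {p : ℕ} (hp : p.Prime) {e : ℕ} (hpe : Ideal.span {(p : B)} = maximalIdeal B ^ e)

local notation "R" => MonoidAlgebra ℤ C

include hBK hp hpe in
/-- `f(B/pB) = d · f(𝔽_p[C])`, including the trivial case where `p` is a unit. -/
theorem f_MB_eq' (F : AddInv R p) {d : ℕ}
    (hd : Nat.card (FixedPoints.subring B C ⧸
      Ideal.span {(p : FixedPoints.subring B C)}) = p ^ d) :
    F.f (MB C B ⧸ LinearMap.range (pMul R p (MB C B))) = d * F.f (Perm C p) := by
  by_cases he : e = 0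
  · subst he
    -- `p` is a unit
    have htop : Ideal.span {(p : B)} = ⊤ := by rw [hpe, pow_zero, Ideal.one_eq_top]
    obtain ⟨b, hb⟩ := Ideal.mem_span_singleton'.1 (htop ▸ Submodule.mem_top : (1 : B) ∈ _)
    -- the left side vanishes
    haveI : Subsingleton (MB C B ⧸ LinearMap.range (pMul R p (MB C B))) := by
      rw [range_pMul_MB hpe]
      apply Submodule.Quotient.subsingleton_iff.2
      rw [eq_top_iff]
      intro x _
      rw [mem_Pw, pow_zero, Ideal.one_eq_top]
      exact Submodule.mem_top
    rw [F.eq_zero_of_subsingleton]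
    -- `d = 0`
    have hbfix : ∀ c : C, c • b = b := fun c => by
      have h1 : (c • b) * (p : B) = 1 := by
        have := congrArg (fun x => c • x) hb
        simp only [smul_mul', smul_one] at this
        rwa [show c • (p : B) = p from map_natCast (MulSemiringAction.toRingHom C B c) p] at this
      calc c • b = (c • b) * (b * (p : B)) := by rw [hb, mul_one]
        _ = ((c • b) * (p : B)) * b := by ring
        _ = b := by rw [h1, one_mul]
    have htop' : Ideal.span {(p : FixedPoints.subring B C)} = ⊤ := by
      rw [Ideal.eq_top_iff_one, Ideal.mem_span_singleton']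
      exact ⟨⟨b, hbfix⟩, Subtype.ext hb⟩
    have hcard : Nat.card (FixedPoints.subring B C ⧸
        Ideal.span {(p : FixedPoints.subring B C)}) = 1 := by
      haveI : Subsingleton (FixedPoints.subring B C ⧸
          Ideal.span {(p : FixedPoints.subring B C)}) :=
        Ideal.Quotient.subsingleton_iff.2 htop'
      exact Nat.card_of_subsingleton 0
    rw [hcard] at hd
    have hd0 : d = 0 := by
      by_contra h
      have := Nat.one_lt_pow h hp.one_lt
      omega
    rw [hd0]
    simp
  · exact f_MB_eq (K := K) hBK hp hpe he F hd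

include hBK hp hpe in
/-- **The equivariant unit count (L6-core)**: for every additive invariant `f` of finite
`p`-torsion `ℤ[C]`-modules, `f(Kˣ/p) = f(𝔽_p) + f(μ_p(K)) + d · f(𝔽_p[C])`, `p^d = |B^C/p|`. -/
theorem f_units_mod_p (F : AddInv R p) {d : ℕ}
    (hd : Nat.card (FixedPoints.subring B C ⧸
      Ideal.span {(p : FixedPoints.subring B C)}) = p ^ d) :
    F.f (MK C K ⧸ LinearMap.range (pMul R p (MK C K))) =
      F.f (Triv C (ZMod p)) + F.f (LinearMap.ker (pMul R p (MK C K))) +
        d * F.f (Perm C p) := by
  rw [f_units_eq_f_MB (B := B) hBK hp hpe F, f_MB_eq' (K := K) hBK hp hpe F hd]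

end Main

end Fermat.Agent.S56.Loc.EC.Units
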